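import Mathlib
import Fermat.Prelude.Def_AlgebraicCurve_DivisorClassGroup

/-!
Places attached to finitely many discrete valuations lying over one point of the line.

If `w C` (`C : J`) are valuations of `F` with `w C t = exp (-m)`, with value sets inside
`(m / s C) ℤ`, such that an element integral at all of them is integral at every place where
`t` has a zero, and if `∑ s C` does not exceed the degree of the zero divisor of `t`, then the
`w C` give exactly the zeros of `t`, each once, with ramification `s C`.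
-/

set_option autoImplicit false

noncomputable section

open AlgebraicCurve WithZero

namespace Fermat.Agent.MF.PlaceOrbits

variable {K F : Type*} [Field K] [Field F] [Algebra K F]

theorem pl_ord_nonneg_of_mem (v : Place K F) {x : F} (hx : x ∈ v.toValuationSubring) :
    0 ≤ v.ord x := by
  rcases eq_or_ne x 0 with rfl | h0
  · simp
  have h : v.adicValuation x ≤ 1 := by
    have := v.adicValuation_coe ⟨x, hx⟩
    rw [show ((⟨x, hx⟩ : v.toValuationSubring) : F) = x from rfl] at this
    rw [this]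
    exact IsDedekindDomain.HeightOneSpectrum.intValuation_le_one _ _
  have h' := (log_le_log (v.adicValuation_ne_zero h0) one_ne_zero).2 h
  rw [log_one] at h'
  simp only [Place.ord]
  omega

theorem pl_mem_of_ord_nonneg (v : Place K F) {x : F} (hx : 0 ≤ v.ord x) :
    x ∈ v.toValuationSubring := by
  rcases eq_or_ne x 0 with rfl | h0
  · exact zero_mem _
  obtain ⟨π, hπ⟩ := IsDiscreteValuationRing.exists_irreducible v.toValuationSubring
  obtain ⟨u, hu⟩ := v.exists_unit_mul_zpow h0 hπ
  rw [hu, show v.ord x = ((v.ord x).toNat : ℤ) by omega, zpow_natCast]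
  exact mul_mem (u : v.toValuationSubring).2 (pow_mem π.2 _)

theorem pl_mem_iff_ord_nonneg (v : Place K F) {x : F} :
    x ∈ v.toValuationSubring ↔ 0 ≤ v.ord x :=
  ⟨pl_ord_nonneg_of_mem v, pl_mem_of_ord_nonneg v⟩

theorem pl_ord_pow (v : Place K F) (x : F) (n : ℕ) : v.ord (x ^ n) = n * v.ord x := by
  simpa using v.ord_zpow x (n : ℤ)

theorem pl_ord_neg (v : Place K F) (x : F) : v.ord (-x) = v.ord x := by
  simp [Place.ord]

theorem pl_min_le_ord_add (v : Place K F) {x y : F} (hxy : x + y ≠ 0) (hx : x ≠ 0) (hy : y ≠ 0) :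
    min (v.ord x) (v.ord y) ≤ v.ord (x + y) := by
  have h := v.adicValuation.map_add x y
  rcases le_max_iff.1 h with h | h
  · have := (log_le_log (v.adicValuation_ne_zero hxy) (v.adicValuation_ne_zero hx)).2 h
    simp only [Place.ord]; omega
  · have := (log_le_log (v.adicValuation_ne_zero hxy) (v.adicValuation_ne_zero hy)).2 h
    simp only [Place.ord]; omega

theorem pl_ord_one_add (v : Place K F) {x : F} (hx : x ≠ 0) (hne : v.ord x ≠ 0) :
    1 + x ≠ 0 ∧ v.ord (1 + x) = min 0 (v.ord x) := by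
  have h0 : 1 + x ≠ 0 := by
    intro h
    have : x = -1 := by linear_combination h
    rw [this, pl_ord_neg, Place.ord_one] at hne
    exact hne rfl
  refine ⟨h0, ?_⟩
  have h1 := pl_min_le_ord_add v h0 one_ne_zero hx
  have h2 := pl_min_le_ord_add v (x := 1 + x) (y := -x) (by simp) h0 (neg_ne_zero.2 hx)
  have h3 := pl_min_le_ord_add v (x := 1 + x) (y := -1) (by simpa using hx) h0 (by simp)
  simp only [add_neg_cancel_right, add_neg_cancel_comm, pl_ord_neg, Place.ord_one] at h1 h2 h3
  omega

theorem pl_exists_pair {P Q : Place K F} (h : P ≠ Q) :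
    ∃ x : F, x ≠ 0 ∧ P.ord x < 0 ∧ 0 < Q.ord x := by
  have key : ∀ A B : Place K F, A ≠ B →
      ∃ a : F, a ≠ 0 ∧ 0 ≤ A.ord a ∧ B.ord a < 0 := by
    intro A B hAB
    by_contra hno
    push Not at hno
    apply hAB
    refine Place.ext (SetLike.ext fun x => ⟨fun hx => ?_, fun hx => ?_⟩)
    · rcases eq_or_ne x 0 with rfl | hx0
      · exact zero_mem _
      exact pl_mem_of_ord_nonneg B (hno x hx0 (pl_ord_nonneg_of_mem A hx))
    · by_contra hxA
      have hx0 : x ≠ 0 := fun h => hxA (h ▸ zero_mem _)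
      rw [pl_mem_iff_ord_nonneg, not_le] at hxA
      have hxB := pl_ord_nonneg_of_mem B hx
      -- a uniformiser of `B` times a power of `x⁻¹` contradicts `hno`
      obtain ⟨π, hπ⟩ := IsDiscreteValuationRing.exists_irreducible B.toValuationSubring
      have hπ0 : (π : F) ≠ 0 := by simpa [ne_eq, ZeroMemClass.coe_eq_zero] using hπ.ne_zero
      have hBπ := B.ord_coe_irreducible hπ
      rcases eq_or_lt_of_le hxB with hB | hB
      · -- `x` is a unit at `B`
        set n := (|A.ord (π : F)| + 1).toNat with hn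
        have hne : (π : F)⁻¹ * (x⁻¹) ^ n ≠ 0 := by simp [hπ0, hx0]
        have hA' : 0 ≤ A.ord ((π : F)⁻¹ * (x⁻¹) ^ n) := by
          rw [A.ord_mul (inv_ne_zero hπ0) (by simp [hx0]), pl_ord_pow, A.ord_inv, A.ord_inv]
          have hn' : (n : ℤ) = |A.ord (π : F)| + 1 := by
            rw [hn]; exact Int.toNat_of_nonneg (by positivity)
          have h1 := le_abs_self (A.ord (π : F))
          have h2 : (n : ℤ) * 1 ≤ n * -A.ord x := by
            apply mul_le_mul_of_nonneg_left <;> omega
          omega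
        have := hno _ hne hA'
        rw [B.ord_mul (inv_ne_zero hπ0) (by simp [hx0]), pl_ord_pow, B.ord_inv, B.ord_inv,
          hBπ, ← hB] at this
        simp at this
      · have hne : x⁻¹ ≠ 0 := inv_ne_zero hx0
        have := hno _ hne (by rw [A.ord_inv]; omega)
        rw [B.ord_inv] at this
        omega
  obtain ⟨a, ha0, ha, ha'⟩ := key P Q h
  obtain ⟨b, hb0, hb, hb'⟩ := key Q P (Ne.symm h)
  refine ⟨b / a, div_ne_zero hb0 ha0, ?_, ?_⟩ <;>
  · rw [div_eq_mul_inv, Place.ord_mul _ hb0 (inv_ne_zero ha0), Place.ord_inv]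
    omega

theorem pl_exists_separating (P : Place K F) (S : Finset (Place K F)) (hP : P ∉ S) :
    ∃ x : F, x ≠ 0 ∧ P.ord x < 0 ∧ ∀ Q ∈ S, 0 < Q.ord x := by
  classical
  induction S using Finset.induction with
  | empty =>
      obtain ⟨π, hπ⟩ := IsDiscreteValuationRing.exists_irreducible P.toValuationSubring
      refine ⟨(π : F)⁻¹, inv_ne_zero (by simpa [ne_eq, ZeroMemClass.coe_eq_zero] using hπ.ne_zero),
        ?_, by simp⟩
      rw [P.ord_inv, P.ord_coe_irreducible hπ]
      norm_num
  | insert R S hR ih =>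
      simp only [Finset.mem_insert, not_or] at hP
      obtain ⟨x, hx0, hxP, hxS⟩ := ih hP.2
      obtain ⟨y, hy0, hyP, hyR⟩ := pl_exists_pair hP.1
      set r : ℕ := (∑ Q ∈ S, |Q.ord y|).toNat + 1 with hr
      have hbig : ∀ Q ∈ S, 0 < (r : ℤ) * Q.ord x + Q.ord y := by
        intro Q hQ
        have h1 : |Q.ord y| ≤ ∑ Q' ∈ S, |Q'.ord y| :=
          Finset.single_le_sum (f := fun Q' : Place K F => |Q'.ord y|) (fun _ _ => abs_nonneg _) hQ
        have h2 : (r : ℤ) * 1 ≤ r * Q.ord x :=
          mul_le_mul_of_nonneg_left (hxS Q hQ) (by omega)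
        have h3 := neg_abs_le (Q.ord y)
        omega
      have hrx : x ^ r ≠ 0 := pow_ne_zero r hx0
      have hrP : (r : ℤ) * P.ord x ≤ 0 :=
        mul_nonpos_of_nonneg_of_nonpos (by omega) hxP.le
      rcases le_or_gt 0 (R.ord x) with hxR | hxR
      · refine ⟨x ^ r * y, mul_ne_zero hrx hy0, ?_, ?_⟩
        · rw [P.ord_mul hrx hy0, pl_ord_pow]; omega
        intro Q hQ
        rw [Q.ord_mul hrx hy0, pl_ord_pow]
        rcases Finset.mem_insert.1 hQ with rfl | hQ
        · have : 0 ≤ (r : ℤ) * Q.ord x := mul_nonneg (by omega) hxR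
          omega
        · exact hbig Q hQ
      · have hPn : P.ord (x ^ r) < 0 := by
          rw [pl_ord_pow]; exact mul_neg_of_pos_of_neg (by omega) hxP
        obtain ⟨h1x, hP1⟩ := pl_ord_one_add P hrx hPn.ne
        refine ⟨y * (x ^ r / (1 + x ^ r)), mul_ne_zero hy0 (div_ne_zero hrx h1x), ?_, ?_⟩
        · rw [div_eq_mul_inv, P.ord_mul hy0 (mul_ne_zero hrx (inv_ne_zero h1x)),
            P.ord_mul hrx (inv_ne_zero h1x), P.ord_inv, hP1]
          omega
        intro Q hQ
        rw [div_eq_mul_inv, Q.ord_mul hy0 (mul_ne_zero hrx (inv_ne_zero h1x)),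
          Q.ord_mul hrx (inv_ne_zero h1x), Q.ord_inv]
        rcases Finset.mem_insert.1 hQ with rfl | hQ
        · have hQn : Q.ord (x ^ r) < 0 := by
            rw [pl_ord_pow]; exact mul_neg_of_pos_of_neg (by omega) hxR
          rw [(pl_ord_one_add Q hrx hQn.ne).2]
          omega
        · have hQp : 0 < Q.ord (x ^ r) := by
            rw [pl_ord_pow]; exact mul_pos (by omega) (hxS Q hQ)
          rw [(pl_ord_one_add Q hrx hQp.ne').2, pl_ord_pow]
          have := hbig Q hQ
          have := mul_pos (show (0 : ℤ) < r by omega) (hxS Q hQ)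
          omega

section OfValuation

variable (w : Valuation F ℤᵐ⁰)

/-- The place of `F/K` given by a nontrivial `ℤ`-valued valuation trivial on `K`. -/
def placeOfVal (hK : ∀ a : K, a ≠ 0 → w (algebraMap K F a) = 1)
    (hnt : ∃ x : F, w x ≠ 0 ∧ w x ≠ 1) : Place K F where
  toValuationSubring := w.valuationSubring
  algebraMap_mem' a := by
    rw [Valuation.mem_valuationSubring_iff]
    rcases eq_or_ne a 0 with rfl | ha
    · simp
    · exact (hK a ha).le
  ne_top' h := by
    obtain ⟨x, hx0, hx1⟩ := hnt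
    have hx : x ≠ 0 := fun hx => hx0 (by simp [hx])
    have h1 : x ∈ w.valuationSubring := h ▸ ValuationSubring.mem_top x
    have h2 : x⁻¹ ∈ w.valuationSubring := h ▸ ValuationSubring.mem_top x⁻¹
    rw [Valuation.mem_valuationSubring_iff] at h1 h2
    rw [map_inv₀, inv_le_one₀ (zero_lt_iff.2 hx0)] at h2
    exact hx1 (le_antisymm h1 h2)
  isPrincipalIdealRing' := by
    refine ⟨fun I => ?_⟩
    by_cases hI : ∃ a ∈ I, a ≠ (0 : w.valuationSubring)
    · classical
      have hne : ∃ n : ℕ, ∃ a ∈ I, a ≠ (0 : w.valuationSubring) ∧ (-log (w (a : F))).toNat = n := by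
        obtain ⟨a, ha, ha0⟩ := hI
        exact ⟨_, a, ha, ha0, rfl⟩
      obtain ⟨a, ha, ha0, han⟩ := Nat.find_spec hne
      refine ⟨⟨a, le_antisymm (fun b hb => ?_) ?_⟩⟩
      · rcases eq_or_ne b 0 with rfl | hb0
        · exact zero_mem _
        have hwa : w (a : F) ≠ 0 := w.ne_zero_iff.2 (by simpa using ha0)
        have hwb : w (b : F) ≠ 0 := w.ne_zero_iff.2 (by simpa using hb0)
        have hmin : Nat.find hne ≤ (-log (w (b : F))).toNat :=
          Nat.find_min' hne ⟨b, hb, hb0, rfl⟩
        have la : log (w (a : F)) ≤ 0 :=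
          log_one (M := ℤ) ▸ (log_le_log hwa one_ne_zero).2 a.2
        have lb : log (w (b : F)) ≤ 0 :=
          log_one (M := ℤ) ▸ (log_le_log hwb one_ne_zero).2 b.2
        have hle : w (b : F) ≤ w (a : F) := (log_le_log hwb hwa).1 (by omega)
        refine Submodule.mem_span_singleton.2 ⟨⟨(b : F) / a, ?_⟩, Subtype.ext ?_⟩
        · rw [Valuation.mem_valuationSubring_iff, map_div₀, div_le_one₀ (zero_lt_iff.2 hwa)]
          exact hle
        · show (b : F) / a * a = b
          rw [div_mul_cancel₀]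
          simpa using ha0
      · rw [Submodule.span_le, Set.singleton_subset_iff]
        exact ha
    · push Not at hI
      exact ⟨⟨0, le_antisymm (fun b hb => by simp [hI b hb]) (by simp)⟩⟩

variable (hK : ∀ a : K, a ≠ 0 → w (algebraMap K F a) = 1) (hnt : ∃ x : F, w x ≠ 0 ∧ w x ≠ 1)

theorem mem_placeOfVal {x : F} :
    x ∈ (placeOfVal w hK hnt).toValuationSubring ↔ w x ≤ 1 :=
  Valuation.mem_valuationSubring_iff _ _

theorem exists_scale_placeOfVal :
    ∃ d : ℕ, 0 < d ∧ ∀ x : F, -log (w x) = (d : ℤ) * (placeOfVal w hK hnt).ord x := by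
  set P := placeOfVal w hK hnt
  obtain ⟨π, hπ⟩ := IsDiscreteValuationRing.exists_irreducible P.toValuationSubring
  have hπ0 : (π : F) ≠ 0 := by simpa [ne_eq, ZeroMemClass.coe_eq_zero] using hπ.ne_zero
  have hwπ : w (π : F) < 1 := by
    refine lt_of_le_of_ne π.2 fun h => hπ.not_isUnit ?_
    refine isUnit_iff_exists_inv.2 ⟨⟨(π : F)⁻¹, ?_⟩, Subtype.ext (mul_inv_cancel₀ hπ0)⟩
    show w (π : F)⁻¹ ≤ 1
    simp [h]
  have hlogπ : log (w (π : F)) < 0 :=
    log_one (M := ℤ) ▸ (log_lt_log (w.ne_zero_iff.2 hπ0) one_ne_zero).2 hwπ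
  refine ⟨(-log (w (π : F))).toNat, by omega, fun x => ?_⟩
  rcases eq_or_ne x 0 with rfl | hx
  · simp
  obtain ⟨u, hu⟩ := P.exists_unit_mul_zpow hx hπ
  have hwu : w ((u : P.toValuationSubring) : F) = 1 := by
    refine le_antisymm (u : P.toValuationSubring).2 ?_
    have h1 : w (((u⁻¹ : P.toValuationSubringˣ) : P.toValuationSubring) : F) ≤ 1 :=
      ((u⁻¹ : P.toValuationSubringˣ) : P.toValuationSubring).2
    have h2 := congrArg (fun z : P.toValuationSubring => w (z : F)) u.mul_inv
    simp only [MulMemClass.coe_mul, map_mul, OneMemClass.coe_one, map_one] at h2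
    calc (1 : ℤᵐ⁰) = _ := h2.symm
      _ ≤ w ((u : P.toValuationSubring) : F) * 1 := mul_le_mul_right h1 _
      _ = _ := mul_one _
  conv_lhs => rw [hu, map_mul, hwu, one_mul, map_zpow₀, log_zpow, smul_eq_mul]
  rw [Int.toNat_of_nonneg (by omega)]
  ring

end OfValuation

variable {J : Type*} [Fintype J]

/-- Valuations over one point, with orbit sizes adding up to the degree: they give exactly the
places over that point. -/
theorem placeOrbits_bijective (w : J → Valuation F ℤᵐ⁰) (s : J → ℕ) (t : F) (m : ℕ)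
    (hs : ∀ C, 0 < s C) (hm : 0 < m)
    (hK : ∀ C, ∀ a : K, a ≠ 0 → w C (algebraMap K F a) = 1)
    (ht : ∀ C, w C t = exp (-(m : ℤ)))
    (hdvd : ∀ C, ∀ x : F, (m : ℤ) ∣ (s C : ℤ) * log (w C x))
    (hint : ∀ x : F, (∀ C, w C x ≤ 1) → ∀ P : Place K F, 0 < P.ord t → x ∈ P.toValuationSubring)
    (S : Finset (Place K F)) (hS : ∀ P, P ∈ S ↔ 0 < P.ord t)
    (hsum : ∑ C, (s C : ℤ) ≤ ∑ P ∈ S, P.ord t) :
    ∃ π : J ≃ {P : Place K F // 0 < P.ord t},
      (∀ C x, x ∈ (π C).1.toValuationSubring ↔ w C x ≤ 1) ∧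
      (∀ C, (π C).1.ord t = s C) ∧
      (∀ C x, (m : ℤ) * (π C).1.ord x = (s C : ℤ) * -log (w C x)) := by
  classical
  have hnt : ∀ C, ∃ x : F, w C x ≠ 0 ∧ w C x ≠ 1 := fun C =>
    ⟨t, by rw [ht]; exact exp_ne_zero, fun h => by
      rw [ht] at h
      have := congrArg log h
      simp at this
      omega⟩
  choose d hd hscale using fun C => exists_scale_placeOfVal (w C) (hK C) (hnt C)
  let p : J → Place K F := fun C => placeOfVal (w C) (hK C) (hnt C)
  have he : ∀ C, (m : ℤ) = d C * (p C).ord t := fun C => by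
    rw [← hscale, ht, log_exp]; simp
  have hpos : ∀ C, 0 < (p C).ord t := fun C => by
    have h1 := he C
    have h2 : (0 : ℤ) < d C := by exact_mod_cast hd C
    by_contra h
    push Not at h
    have := mul_nonpos_of_nonneg_of_nonpos h2.le h
    omega
  have hle : ∀ C, (p C).ord t ≤ s C := fun C => by
    obtain ⟨π, hπ⟩ := IsDiscreteValuationRing.exists_irreducible (p C).toValuationSubring
    have h := hdvd C (π : F)
    have h' := hscale C (π : F)
    rw [(p C).ord_coe_irreducible hπ, mul_one] at h'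
    rw [show log (w C (π : F)) = -(d C : ℤ) by omega, mul_neg, dvd_neg, he C,
      mul_comm (s C : ℤ), mul_dvd_mul_iff_left (by exact_mod_cast (hd C).ne')] at h
    exact Int.le_of_dvd (by exact_mod_cast hs C) h
  have hsurj : ∀ P : Place K F, 0 < P.ord t → ∃ C, p C = P := by
    intro P hP
    by_contra hno
    push Not at hno
    obtain ⟨x, -, hxP, hxS⟩ :=
      pl_exists_separating P (Finset.univ.image p) (by simpa using hno)
    have hall : ∀ C, w C x ≤ 1 := fun C =>
      (mem_placeOfVal (w C) (hK C) (hnt C)).1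
        (pl_mem_of_ord_nonneg (p C) (hxS _ (Finset.mem_image_of_mem p (Finset.mem_univ C))).le)
    have := pl_ord_nonneg_of_mem P (hint x hall P hP)
    omega
  have himg : Finset.univ.image p = S := by
    ext P
    simp only [Finset.mem_image, Finset.mem_univ, true_and, hS]
    exact ⟨fun ⟨C, hC⟩ => hC ▸ hpos C, hsurj P⟩
  have hfib : ∑ C, (p C).ord t = ∑ P ∈ S,
      ((Finset.univ.filter fun C => p C = P).card : ℤ) * P.ord t := by
    rw [← himg, ← Finset.sum_fiberwise_of_maps_to (g := p) (t := Finset.univ.image p)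
      (fun C _ => Finset.mem_image_of_mem p (Finset.mem_univ C))]
    refine Finset.sum_congr rfl fun P _ => ?_
    rw [Finset.sum_congr rfl (g := fun _ => P.ord t)
      (fun C hC => by rw [(Finset.mem_filter.1 hC).2])]
    simp
  have hcard : ∀ P ∈ S, 1 ≤ (Finset.univ.filter fun C => p C = P).card := fun P hP => by
    obtain ⟨C, hC⟩ := hsurj P ((hS P).1 hP)
    exact Finset.card_pos.2 ⟨C, by simp [hC]⟩
  have h1 : ∑ P ∈ S, P.ord t ≤
      ∑ P ∈ S, ((Finset.univ.filter fun C => p C = P).card : ℤ) * P.ord t := by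
    refine Finset.sum_le_sum fun P hP => ?_
    have := mul_le_mul_of_nonneg_right (show (1 : ℤ) ≤
      ((Finset.univ.filter fun C => p C = P).card : ℤ) by exact_mod_cast hcard P hP)
      ((hS P).1 hP).le
    simpa using this
  have h2 : ∑ C, (p C).ord t ≤ ∑ C, (s C : ℤ) := Finset.sum_le_sum fun C _ => hle C
  have heq : ∀ C, (p C).ord t = s C := fun C =>
    (Finset.sum_eq_sum_iff_of_le (fun C _ => hle C)).1 (by omega) C (Finset.mem_univ C)
  have hinj : Function.Injective p := by
    intro C C' hCC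
    have hP : p C ∈ S := himg ▸ Finset.mem_image_of_mem p (Finset.mem_univ C)
    have h := (Finset.sum_eq_sum_iff_of_le (s := S) (f := fun P => P.ord t)
      (g := fun P => ((Finset.univ.filter fun C => p C = P).card : ℤ) * P.ord t)
      (fun P hP => by
        have := mul_le_mul_of_nonneg_right (show (1 : ℤ) ≤
          ((Finset.univ.filter fun C => p C = P).card : ℤ) by exact_mod_cast hcard P hP)
          ((hS P).1 hP).le
        simpa using this)).1 (by omega) (p C) hP
    have h' : ((Finset.univ.filter fun C'' => p C'' = p C).card : ℤ) = 1 :=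
      mul_right_cancel₀ (hpos C).ne' (by rw [one_mul]; exact h.symm)
    have h'' : (Finset.univ.filter fun C'' => p C'' = p C).card ≤ 1 := by omega
    exact Finset.card_le_one.1 h'' C (by simp) C' (by simp [hCC])
  refine ⟨Equiv.ofBijective (fun C => ⟨p C, hpos C⟩)
    ⟨fun C C' h => hinj (congrArg Subtype.val h),
      fun P => (hsurj P.1 P.2).imp fun C hC => Subtype.ext hC⟩, ?_, fun C => heq C, ?_⟩
  · exact fun C x => mem_placeOfVal (w C) (hK C) (hnt C)
  · intro C x
    show (m : ℤ) * (p C).ord x = _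
    rw [hscale C x, he C, heq C]
    ring

end Fermat.Agent.MF.PlaceOrbits
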