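import Mathlib

/-!
Orders of vanishing on the upper half plane: behaviour under the slash action and the rotation
identity at a fixed point of an element of `SL(2, ℤ)`.
-/

set_option autoImplicit false

noncomputable section

open UpperHalfPlane Filter Complex
open scoped ModularForm MatrixGroups Topology Manifold

namespace Fermat.Agent.MF.PlaceOrbits

/-- The order of vanishing of a function on `ℍ` at a point (junk value `0` if identically zero). -/
def ptOrd (F : ℍ → ℂ) (τ : ℍ) : ℤ := (meromorphicOrderAt (F ∘ ofComplex) (τ : ℂ)).untop₀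

theorem analyticAt_comp_ofComplex {F : ℍ → ℂ} (hF : MDiff F) (τ : ℍ) :
    AnalyticAt ℂ (F ∘ ofComplex) (τ : ℂ) :=
  (UpperHalfPlane.mdifferentiable_iff.mp hF).analyticAt
    (isOpen_upperHalfPlaneSet.mem_nhds τ.im_pos)

theorem ptOrd_ne_top {F : ℍ → ℂ} (hF : MDiff F) (h0 : F ≠ 0) (τ : ℍ) :
    meromorphicOrderAt (F ∘ ofComplex) (τ : ℂ) ≠ ⊤ := by
  intro htop
  refine h0 ?_
  have hev : ∀ᶠ w in 𝓝 (τ : ℂ), (F ∘ ofComplex) w = 0 := by
    rcases (analyticAt_comp_ofComplex hF τ).eventually_eq_zero_or_eventually_ne_zero with h | h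
    · exact h
    · exact absurd htop ((meromorphicOrderAt_ne_top_iff_eventually_ne_zero
        (analyticAt_comp_ofComplex hF τ).meromorphicAt).mpr h)
  have hconn : IsPreconnected {z : ℂ | 0 < z.im} := (convex_halfSpace_im_gt 0).isPreconnected
  have := AnalyticOnNhd.eqOn_zero_of_preconnected_of_eventuallyEq_zero
    (fun w hw => analyticAt_comp_ofComplex hF ⟨w, hw⟩) hconn τ.im_pos hev
  funext z
  simpa using this z.im_pos

theorem coe_ptOrd {F : ℍ → ℂ} (hF : MDiff F) (h0 : F ≠ 0) (τ : ℍ) :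
    meromorphicOrderAt (F ∘ ofComplex) (τ : ℂ) = (ptOrd F τ : WithTop ℤ) :=
  (WithTop.coe_untop₀_of_ne_top (ptOrd_ne_top hF h0 τ)).symm

theorem ptOrd_nonneg {F : ℍ → ℂ} (hF : MDiff F) (τ : ℍ) : 0 ≤ ptOrd F τ := by
  rcases eq_or_ne F 0 with rfl | h0
  · rw [ptOrd, show ((0 : ℍ → ℂ) ∘ ofComplex) = (0 : ℂ → ℂ) from rfl]
    simp
  · have h := (analyticAt_comp_ofComplex hF τ).meromorphicOrderAt_nonneg
    rw [coe_ptOrd hF h0 τ] at h
    exact_mod_cast h

theorem ptOrd_mul {F G : ℍ → ℂ} (hF : MDiff F) (hF0 : F ≠ 0) (hG : MDiff G) (hG0 : G ≠ 0)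
    (τ : ℍ) : ptOrd (F * G) τ = ptOrd F τ + ptOrd G τ := by
  have h : meromorphicOrderAt ((F * G) ∘ ofComplex) (τ : ℂ) =
      (ptOrd F τ : WithTop ℤ) + ptOrd G τ := by
    rw [show (F * G) ∘ ofComplex = (F ∘ ofComplex) * (G ∘ ofComplex) from rfl,
      meromorphicOrderAt_mul (analyticAt_comp_ofComplex hF τ).meromorphicAt
        (analyticAt_comp_ofComplex hG τ).meromorphicAt, coe_ptOrd hF hF0, coe_ptOrd hG hG0]
  rw [ptOrd, h, ← WithTop.coe_add, WithTop.untop₀_coe]

theorem ptOrd_min_le_add {F G : ℍ → ℂ} (hF : MDiff F) (hF0 : F ≠ 0) (hG : MDiff G) (hG0 : G ≠ 0)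
    (hFG : F + G ≠ 0) (τ : ℍ) : min (ptOrd F τ) (ptOrd G τ) ≤ ptOrd (F + G) τ := by
  have h := meromorphicOrderAt_add (analyticAt_comp_ofComplex hF τ).meromorphicAt
    (analyticAt_comp_ofComplex hG τ).meromorphicAt
  rw [show (F ∘ ofComplex) + (G ∘ ofComplex) = (F + G) ∘ ofComplex from rfl,
    coe_ptOrd hF hF0, coe_ptOrd hG hG0, coe_ptOrd (hF.add hG) hFG] at h
  exact_mod_cast h

theorem ptOrd_const {c : ℂ} (hc : c ≠ 0) (τ : ℍ) : ptOrd (fun _ => c) τ = 0 := by
  classical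
  rw [ptOrd, show ((fun _ : ℍ => c) ∘ ofComplex) = (fun _ : ℂ => c) from rfl,
    meromorphicOrderAt_const]
  simp [hc]

theorem ptOrd_eq_zero_of_ne_zero {F : ℍ → ℂ} (hF : MDiff F) {τ : ℍ} (h : F τ ≠ 0) :
    ptOrd F τ = 0 := by
  have ha := analyticAt_comp_ofComplex hF τ
  have h' : analyticOrderAt (F ∘ ofComplex) (τ : ℂ) = 0 :=
    ha.analyticOrderAt_eq_zero.2 (by simpa using h)
  rw [ptOrd, ha.meromorphicOrderAt_eq, h']
  simp

theorem ptOrd_slash {F : ℍ → ℂ} (hF : MDiff F) (k : ℤ) (g : SL(2, ℤ)) (τ : ℍ) :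
    ptOrd (F ∣[k] g) τ = ptOrd F (g • τ) := by
  set G : GL (Fin 2) ℝ := (g : GL (Fin 2) ℝ) with hG
  have hdet1 : G.val.det = 1 :=
    (Matrix.SpecialLinearGroup.map (Int.castRingHom ℝ) g).prop
  have hdet : 0 < G.val.det := by rw [hdet1]; exact one_pos
  have hev : (F ∣[k] g) ∘ ofComplex =ᶠ[𝓝[≠] (τ : ℂ)]
      (fun z => F (G • ofComplex z)) * (fun z => denom G z ^ (-k)) := by
    refine Filter.EventuallyEq.filter_mono ?_ nhdsWithin_le_nhds
    filter_upwards [isOpen_upperHalfPlaneSet.mem_nhds τ.im_pos] with z hz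
    simp only [Function.comp_apply, ModularForm.SL_slash_apply, Pi.mul_apply,
      ofComplex_apply_of_im_pos hz]
    rfl
  have h1 : AnalyticAt ℂ (fun z : ℂ => denom G z ^ (-k)) (τ : ℂ) := by
    refine AnalyticAt.zpow ?_ (denom_ne_zero G τ)
    unfold denom
    fun_prop
  have h2 : AnalyticAt ℂ (fun z => F (G • ofComplex z)) (τ : ℂ) := by
    have := (analyticAt_comp_ofComplex hF (G • τ))
    have hg := τ.analyticAt_smul hdet
    have e : ((fun z ↦ ↑(G • ofComplex z)) : ℂ → ℂ) (τ : ℂ) = ((G • τ : ℍ) : ℂ) := by simp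
    have := AnalyticAt.comp_of_eq (g := F ∘ ofComplex) this hg e
    simpa [Function.comp_def] using this
  rw [ptOrd, ptOrd, meromorphicOrderAt_congr hev,
    meromorphicOrderAt_mul h2.meromorphicAt h1.meromorphicAt, meromorphicOrderAt_comp_smul hdet,
    h1.meromorphicOrderAt_eq, h1.analyticOrderAt_eq_zero.2 (zpow_ne_zero _ (denom_ne_zero G τ))]
  simp only [ENat.map_zero, CharP.cast_eq_zero, WithTop.coe_zero, add_zero]
  rfl

/-- At a fixed point `τ` of `g`, a function invariant under `∣[k] g` satisfies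
`(c τ + d) ^ (k + 2 ord_τ F) = 1`. -/
theorem denom_zpow_eq_one_of_fixed {F : ℍ → ℂ} (hF : MDiff F) (h0 : F ≠ 0) {k : ℤ}
    {g : SL(2, ℤ)} (hinv : F ∣[k] g = F) {τ : ℍ} (hfix : g • τ = τ) :
    (denom (g : GL (Fin 2) ℝ) (τ : ℂ)) ^ (k + 2 * ptOrd F τ) = 1 := by
  set G : GL (Fin 2) ℝ := (g : GL (Fin 2) ℝ) with hG
  have hdet1 : G.val.det = 1 :=
    (Matrix.SpecialLinearGroup.map (Int.castRingHom ℝ) g).prop
  have hdet : 0 < G.val.det := by rw [hdet1]; exact one_pos
  have hfix' : G • τ = τ := hfix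
  set v := ptOrd F τ
  obtain ⟨H, hHa, hH0, hev⟩ := (meromorphicOrderAt_eq_int_iff
    (analyticAt_comp_ofComplex hF τ).meromorphicAt).1 (coe_ptOrd hF h0 τ)
  set w : ℂ → ℂ := fun z => ((G • ofComplex z : ℍ) : ℂ) with hw
  have hwa : AnalyticAt ℂ w τ := τ.analyticAt_smul hdet
  have hwτ : w (τ : ℂ) = τ := by simp [hw, hfix']
  have hnc : ¬ EventuallyConst w (𝓝 (τ : ℂ)) := by
    intro hc
    exact τ.deriv_smul_ne_zero hdet (by
      obtain ⟨c, hc⟩ := eventuallyConst_iff_exists_eventuallyEq.1 hc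
      exact (Filter.EventuallyEq.deriv_eq hc).trans (deriv_const _ _))
  have htends : Tendsto w (𝓝[≠] (τ : ℂ)) (𝓝[≠] (τ : ℂ)) := by
    have := hwa.map_nhdsNE hnc
    rwa [hwτ] at this
  set D : ℂ → ℂ := fun z => (denom G z * denom G (τ : ℂ))⁻¹ with hD
  have key : ∀ᶠ z in 𝓝[≠] (τ : ℂ), D z ^ v * H (w z) = denom G z ^ k * H z := by
    filter_upwards [self_mem_nhdsWithin, hev, htends.eventually hev,
      mem_nhdsWithin_of_mem_nhds (isOpen_upperHalfPlaneSet.mem_nhds τ.im_pos)]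
      with z hne hz hwz him
    have hne' : z - (τ : ℂ) ≠ 0 := sub_ne_zero.2 hne
    have hwD : w z - τ = (z - τ) * D z := by
      have h1 : w z = num G z / denom G z := by
        simp only [hw, coe_smul_of_det_pos hdet, ofComplex_apply_of_im_pos him]
      have h2 : (τ : ℂ) = num G (τ : ℂ) / denom G (τ : ℂ) := by
        rw [← coe_smul_of_det_pos hdet τ, hfix']
      have hd1 : denom G z ≠ 0 := denom_ne_zero G ⟨z, him⟩
      have hd2 : denom G (τ : ℂ) ≠ 0 := denom_ne_zero G τ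
      have hd : ((G 0 0 : ℝ) : ℂ) * (G 1 1 : ℝ) - (G 0 1 : ℝ) * (G 1 0 : ℝ) = 1 := by
        have hgd : G.val.det = 1 := hdet1
        rw [Matrix.det_fin_two] at hgd
        exact_mod_cast hgd
      rw [h1]
      conv_lhs => rw [h2]
      rw [hD, div_sub_div _ _ hd1 hd2, ← div_eq_mul_inv]
      congr 1
      simp only [num, denom]
      linear_combination (z - (τ : ℂ)) * hd
    have hF' : F (G • ofComplex z) = denom G z ^ k * (F ∘ ofComplex) z := by
      have h1 := congrFun hinv (ofComplex z)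
      rw [ModularForm.SL_slash_apply] at h1
      simp only [Function.comp_apply]
      rw [← h1, ofComplex_apply_of_im_pos him]
      have hd1 : denom G z ≠ 0 := denom_ne_zero G ⟨z, him⟩
      show _ = denom G z ^ k * (F (G • _) * denom G z ^ (-k))
      rw [zpow_neg]
      field_simp
    simp only [Function.comp_apply, smul_eq_mul, hw, ofComplex_apply] at hwz
    rw [hF', hz, smul_eq_mul] at hwz
    change _ = (w z - τ) ^ v * H (w z) at hwz
    rw [hwD, mul_zpow] at hwz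
    have hzv : (z - (τ : ℂ)) ^ v ≠ 0 := zpow_ne_zero _ hne'
    apply mul_left_cancel₀ hzv
    linear_combination -hwz
  have hc1 : ContinuousAt (fun z => D z ^ v * H (w z)) (τ : ℂ) := by
    refine ContinuousAt.mul (ContinuousAt.zpow₀ ?_ _ (Or.inl ?_)) ?_
    · refine ContinuousAt.inv₀ ?_ (mul_ne_zero (denom_ne_zero G τ) (denom_ne_zero G τ))
      unfold denom
      fun_prop
    · exact inv_ne_zero (mul_ne_zero (denom_ne_zero G τ) (denom_ne_zero G τ))
    · exact ContinuousAt.comp (g := H) (by rw [hwτ]; exact hHa.continuousAt) hwa.continuousAt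
  have hc2 : ContinuousAt (fun z => denom G z ^ k * H z) (τ : ℂ) := by
    refine ContinuousAt.mul (ContinuousAt.zpow₀ ?_ _ (Or.inl (denom_ne_zero G τ)))
      hHa.continuousAt
    unfold denom
    fun_prop
  have heq := tendsto_nhds_unique
    ((hc1.continuousWithinAt (s := {(τ : ℂ)}ᶜ)).congr' key) hc2.continuousWithinAt
  simp only [hwτ] at heq
  have heq' : D (τ : ℂ) ^ v = denom G (τ : ℂ) ^ k := mul_right_cancel₀ hH0 heq
  have hd2 : denom G (τ : ℂ) ≠ 0 := denom_ne_zero G τ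
  simp only [hD] at heq'
  rw [zpow_add₀ hd2, ← heq', inv_zpow, two_mul, zpow_add₀ hd2, mul_zpow]
  exact inv_mul_cancel₀ (mul_ne_zero (zpow_ne_zero _ hd2) (zpow_ne_zero _ hd2))

end Fermat.Agent.MF.PlaceOrbits
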