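import Fermat.Agent.MF.Defs
import Fermat.Agent.MF.CuspSlash
import Fermat.Agent.MF.Cosets.Index
import Fermat.Agent.MF.PlaceOrbits.PointOrder

/-!
The valuations of `MFField N` attached to points of `ℍ` and to cusps, their behaviour under
`Γ₀(N)`, and the divisibility of their values at fixed points and at cusps.
-/

set_option autoImplicit false

noncomputable section

open UpperHalfPlane CongruenceSubgroup WithZero Function
open scoped ModularForm MatrixGroups Manifold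

namespace Fermat.Agent.MF.PlaceOrbits

variable {N : ℕ}

/-- An order function on forms of level `N`, additive under products. -/
structure FormOrder (N : ℕ) where
  toFun : ℤ → (ℍ → ℂ) → ℤ
  map_mul : ∀ {k l : ℤ} (f : MForm N k) (g : MForm N l), f ≠ 0 → g ≠ 0 →
    toFun (k + l) ((f : ℍ → ℂ) * (g : ℍ → ℂ)) = toFun k f + toFun l g
  map_add : ∀ {k : ℤ} (f g : MForm N k), f ≠ 0 → g ≠ 0 → f + g ≠ 0 →
    min (toFun k f) (toFun k g) ≤ toFun k ((f : ℍ → ℂ) + (g : ℍ → ℂ))
  map_const : ∀ c : ℂ, c ≠ 0 → toFun 0 (fun _ => c) = 0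

namespace FormOrder

variable (o : FormOrder N)

theorem ratio_congr {k l : ℤ} {f g : MForm N k} {f' g' : MForm N l}
    (hf : f ≠ 0) (hg : g ≠ 0) (hg' : g' ≠ 0) (hx : qL f / qL g = qL f' / qL g') :
    o.toFun k f - o.toFun k g = o.toFun l f' - o.toFun l g' := by
  have hf' : f' ≠ 0 := by
    intro h0
    rw [h0, FunLike.coe_zero, qL_zero, zero_div, div_eq_zero_iff, qL_mform_eq_zero_iff,
      qL_mform_eq_zero_iff] at hx
    exact hx.elim hf hg
  have hcross : (f : ℍ → ℂ) * g' = (f' : ℍ → ℂ) * g := funext (ratio_cross_eq hg hg' hx)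
  have h1 := o.map_mul f g' hf hg'
  have h2 := o.map_mul f' g hf' hg
  rw [hcross, add_comm k l] at h1
  omega

/-- The order of a ratio. -/
def ratioOrd (x : MFField N) : ℤ :=
  o.toFun (mem_MFField_iff.1 x.2).choose (mem_MFField_iff.1 x.2).choose_spec.choose -
    o.toFun (mem_MFField_iff.1 x.2).choose (mem_MFField_iff.1 x.2).choose_spec.choose_spec.choose

theorem ratioOrd_eq {k : ℤ} {f g : MForm N k} (hf : f ≠ 0) (hg : g ≠ 0) {x : MFField N}
    (h : (x : LaurentSeries ℂ) = qL f / qL g) : o.ratioOrd x = o.toFun k f - o.toFun k g := by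
  obtain ⟨hg', hx'⟩ := (mem_MFField_iff.1 x.2).choose_spec.choose_spec.choose_spec
  exact (o.ratio_congr hf hg hg' (h.symm.trans hx')).symm

theorem exists_rep {x : MFField N} (hx : x ≠ 0) :
    ∃ (k : ℤ) (f g : MForm N k), f ≠ 0 ∧ g ≠ 0 ∧ (x : LaurentSeries ℂ) = qL f / qL g := by
  obtain ⟨k, f, g, hg, h⟩ := mem_MFField_iff.1 x.2
  refine ⟨k, f, g, ?_, hg, h⟩
  rintro rfl
  rw [FunLike.coe_zero, qL_zero, zero_div] at h
  exact hx (Subtype.ext h)

open Classical in
/-- The valuation of `MFField N` defined by an order function. -/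
def val : Valuation (MFField N) ℤᵐ⁰ where
  toFun x := if x = 0 then 0 else exp (-o.ratioOrd x)
  map_zero' := if_pos rfl
  map_one' := by
    classical
    have hone : (1 : MForm N 0) ≠ 0 := fun h => by
      simpa [ModularForm.one_coe_eq_one] using congrArg (fun f : MForm N 0 => f UpperHalfPlane.I) h
    rw [if_neg one_ne_zero,
      o.ratioOrd_eq hone hone (by rw [ModularForm.one_coe_eq_one, qL_one, div_one]; rfl)]
    simp
  map_mul' x y := by
    classical
    rcases eq_or_ne x 0 with rfl | hx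
    · simp
    rcases eq_or_ne y 0 with rfl | hy
    · simp
    obtain ⟨k, f, g, hf, hg, h⟩ := exists_rep hx
    obtain ⟨l, f', g', hf', hg', h'⟩ := exists_rep hy
    rw [if_neg (mul_ne_zero hx hy), if_neg hx, if_neg hy, ← exp_add, o.ratioOrd_eq hf hg h,
      o.ratioOrd_eq hf' hg' h',
      o.ratioOrd_eq (mform_mul_ne_zero hf hf') (mform_mul_ne_zero hg hg')
        (by rw [qL_mform_mul, qL_mform_mul, ← div_mul_div_comm, ← h, ← h']; rfl),
      ModularForm.coe_mul, ModularForm.coe_mul, o.map_mul f f' hf hf', o.map_mul g g' hg hg']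
    ring_nf
  map_add_le_max' x y := by
    classical
    rcases eq_or_ne x 0 with rfl | hx
    · simp
    rcases eq_or_ne y 0 with rfl | hy
    · simp
    rcases eq_or_ne (x + y) 0 with hxy | hxy
    · rw [if_pos hxy]; exact bot_le
    obtain ⟨k, f, g, hf, hg, h⟩ := exists_rep hx
    obtain ⟨l, f', g', hf', hg', h'⟩ := exists_rep hy
    set G : MForm N (k + l) := g.mul g'
    set F₁ : MForm N (k + l) := f.mul g'
    set F₂ : MForm N (k + l) := g.mul f'
    have hG : G ≠ 0 := mform_mul_ne_zero hg hg'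
    have hF₁ : F₁ ≠ 0 := mform_mul_ne_zero hf hg'
    have hF₂ : F₂ ≠ 0 := mform_mul_ne_zero hg hf'
    have hne : qL g ≠ 0 := mt (qL_mform_eq_zero_iff g).1 hg
    have hne' : qL g' ≠ 0 := mt (qL_mform_eq_zero_iff g').1 hg'
    have e₁ : (x : LaurentSeries ℂ) = qL F₁ / qL G := by
      rw [h, qL_mform_mul, qL_mform_mul, mul_div_mul_right _ _ hne']
    have e₂ : (y : LaurentSeries ℂ) = qL F₂ / qL G := by
      rw [h', qL_mform_mul, qL_mform_mul, mul_div_mul_left _ _ hne]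
    have e₃ : ((x + y : MFField N) : LaurentSeries ℂ) = qL (F₁ + F₂ : MForm N (k + l)) / qL G := by
      rw [qL_mform_add, add_div, ← e₁, ← e₂]; rfl
    have hF₃ : F₁ + F₂ ≠ 0 := by
      intro h0
      rw [h0, FunLike.coe_zero, qL_zero, zero_div] at e₃
      exact hxy (Subtype.ext e₃)
    rw [if_neg hxy, if_neg hx, if_neg hy, o.ratioOrd_eq hF₁ hG e₁, o.ratioOrd_eq hF₂ hG e₂,
      o.ratioOrd_eq hF₃ hG e₃, le_max_iff, exp_le_exp, exp_le_exp]
    have := o.map_add F₁ F₂ hF₁ hF₂ hF₃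
    rw [← FunLike.coe_add] at this
    omega

theorem log_val {k : ℤ} {f g : MForm N k} (hf : f ≠ 0) (hg : g ≠ 0) {x : MFField N}
    (h : (x : LaurentSeries ℂ) = qL f / qL g) :
    log (o.val x) = o.toFun k g - o.toFun k f := by
  classical
  have hx : x ≠ 0 := by
    rintro rfl
    rw [ZeroMemClass.coe_zero, eq_comm, div_eq_zero_iff, qL_mform_eq_zero_iff,
      qL_mform_eq_zero_iff] at h
    exact h.elim hf hg
  show log (if x = 0 then (0 : ℤᵐ⁰) else exp (-o.ratioOrd x)) = _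
  rw [if_neg hx, log_exp, o.ratioOrd_eq hf hg h]
  ring

theorem val_le_one_iff {k : ℤ} {f g : MForm N k} (hf : f ≠ 0) (hg : g ≠ 0) {x : MFField N}
    (h : (x : LaurentSeries ℂ) = qL f / qL g) :
    o.val x ≤ 1 ↔ o.toFun k g ≤ o.toFun k f := by
  have hx : x ≠ 0 := by
    rintro rfl
    rw [ZeroMemClass.coe_zero, eq_comm, div_eq_zero_iff, qL_mform_eq_zero_iff,
      qL_mform_eq_zero_iff] at h
    exact h.elim hf hg
  rw [← log_le_log (o.val.ne_zero_iff.2 hx) one_ne_zero, o.log_val hf hg h, log_one, sub_nonpos]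

theorem val_algebraMap {c : ℂ} (hc : c ≠ 0) : o.val (algebraMap ℂ (MFField N) c) = 1 := by
  classical
  have hone : (1 : MForm N 0) ≠ 0 := fun h => by
    simpa [ModularForm.one_coe_eq_one] using congrArg (fun f : MForm N 0 => f UpperHalfPlane.I) h
  have hcone : (c • 1 : MForm N 0) ≠ 0 := smul_ne_zero hc hone
  have hx : algebraMap ℂ (MFField N) c ≠ 0 := (map_ne_zero _).2 hc
  show (if algebraMap ℂ (MFField N) c = 0 then (0 : ℤᵐ⁰) else exp (-o.ratioOrd _)) = 1
  rw [if_neg hx, o.ratioOrd_eq hcone hone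
    (by rw [qL_mform_smul, ModularForm.one_coe_eq_one, qL_one, mul_one, div_one]; rfl)]
  have h1 : ((c • 1 : MForm N 0) : ℍ → ℂ) = fun _ => c := by
    funext z; simp [ModularForm.one_coe_eq_one]
  rw [h1, o.map_const c hc, ModularForm.one_coe_eq_one,
    show (1 : ℍ → ℂ) = fun _ => (1 : ℂ) from rfl, o.map_const 1 one_ne_zero]
  simp

theorem val_congr {o o' : FormOrder N}
    (h : ∀ (k : ℤ) (f : MForm N k), f ≠ 0 → o.toFun k f = o'.toFun k f) : o.val = o'.val := by
  ext x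
  rcases eq_or_ne x 0 with rfl | hx
  · simp
  obtain ⟨k, f, g, hf, hg, e⟩ := exists_rep hx
  rw [← exp_log (o.val.ne_zero_iff.2 hx), ← exp_log (o'.val.ne_zero_iff.2 hx)]
  congr 1
  rw [o.log_val hf hg e, o'.log_val hf hg e, h k f hf, h k g hg]

end FormOrder

/-! ### Points -/

theorem slash_gamma0_eq {k : ℤ} (f : MForm N k) {γ : SL(2, ℤ)} (hγ : γ ∈ Gamma0 N) :
    (f : ℍ → ℂ) ∣[k] γ = f := by
  rw [ModularForm.SL_slash]
  exact SlashInvariantFormClass.slash_action_eq f _ ⟨γ, hγ, rfl⟩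

variable (N) in
/-- The order at `σ`. -/
def ptOrder (σ : ℍ) : FormOrder N where
  toFun _ F := ptOrd F σ
  map_mul f g hf hg := ptOrd_mul (ModularFormClass.holo f) (mform_coe_ne_zero hf)
    (ModularFormClass.holo g) (mform_coe_ne_zero hg) σ
  map_add f g hf hg hfg := ptOrd_min_le_add (ModularFormClass.holo f) (mform_coe_ne_zero hf)
    (ModularFormClass.holo g) (mform_coe_ne_zero hg)
    (by rw [← FunLike.coe_add]; exact mform_coe_ne_zero hfg) σ
  map_const _ hc := ptOrd_const hc σ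

variable (N) in
/-- The valuation of `MFField N` at a point of `ℍ`. -/
def ptVal (σ : ℍ) : Valuation (MFField N) ℤᵐ⁰ := (ptOrder N σ).val

theorem ptVal_smul {γ : SL(2, ℤ)} (hγ : γ ∈ Gamma0 N) (σ : ℍ) :
    ptVal N (γ • σ) = ptVal N σ := by
  refine FormOrder.val_congr fun k f _ => ?_
  show ptOrd _ (γ • σ) = ptOrd _ σ
  rw [← ptOrd_slash (ModularFormClass.holo f) k γ σ, slash_gamma0_eq f hγ]

theorem ptOrd_eq_ordAtH {F : ℍ → ℂ} (hF : MDiff F) (hF0 : F ≠ 0) (σ : ℍ) :
    ptOrd F σ = ordAtH F σ := by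
  have ha := analyticAt_comp_ofComplex hF σ
  rw [ptOrd, ordAtH, ha.meromorphicOrderAt_eq,
    ← Nat.cast_analyticOrderNatAt (analyticOrderAt_ne_top hF hF0 σ), ENat.map_natCast,
    WithTop.untop₀_coe]

theorem mfOrdAt_eq_neg_log_ptVal (σ : ℍ) {x : MFField N} (hx : x ≠ 0) :
    mfOrdAt N x σ = -log (ptVal N σ x) := by
  obtain ⟨k, f, g, hf, hg, h⟩ := FormOrder.exists_rep hx
  rw [ptVal, (ptOrder N σ).log_val hf hg h, h, mfOrdAt_eq hf hg]
  show _ = -(ptOrd _ σ - ptOrd _ σ)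
  rw [ptOrd_eq_ordAtH (ModularFormClass.holo f) (mform_coe_ne_zero hf),
    ptOrd_eq_ordAtH (ModularFormClass.holo g) (mform_coe_ne_zero hg)]
  ring

/-- The valuation at the point `q⁻¹ • τ` of a coset `q`. -/
def ptValAt (τ : ℍ) (q : Cosets.X0 N) : Valuation (MFField N) ℤᵐ⁰ := ptVal N (q.out⁻¹ • τ)

theorem ptValAt_mk (τ : ℍ) (g : SL(2, ℤ)) :
    ptValAt τ (QuotientGroup.mk g : Cosets.X0 N) = ptVal N (g⁻¹ • τ) := by
  obtain ⟨γ, hγ⟩ := QuotientGroup.mk_out_eq_mul (Gamma0 N) g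
  rw [ptValAt, hγ, mul_inv_rev, SemigroupAction.mul_smul,
    ptVal_smul ((Gamma0 N).inv_mem γ.2)]

theorem ptValAt_fixed_smul (τ : ℍ) {h : SL(2, ℤ)} (hh : h • τ = τ) (q : Cosets.X0 N) :
    ptValAt τ (h • q) = ptValAt τ q := by
  induction q using QuotientGroup.induction_on with
  | H g =>
    rw [show h • (QuotientGroup.mk g : Cosets.X0 N) = QuotientGroup.mk (h * g) from rfl,
      ptValAt_mk, ptValAt_mk, mul_inv_rev, SemigroupAction.mul_smul, inv_smul_eq_iff.2 hh.symm]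

theorem denom_pow_fixed {h : SL(2, ℤ)} {τ : ℍ} (hh : h • τ = τ) (s : ℕ) :
    denom ((h ^ s : SL(2, ℤ)) : GL (Fin 2) ℝ) (τ : ℂ) =
      denom (h : GL (Fin 2) ℝ) (τ : ℂ) ^ s := by
  induction s with
  | zero => simp [denom_one]
  | succ s ih =>
    rw [pow_succ, map_mul, map_mul, denom_cocycle_σ, pow_succ]
    have hh' : (h : GL (Fin 2) ℝ) • τ = τ := hh
    rw [hh', ih]
    simp [σ]

theorem denom_conj_fixed {h g : SL(2, ℤ)} {τ : ℍ} (hh : h • τ = τ) :
    denom ((g⁻¹ * h * g : SL(2, ℤ)) : GL (Fin 2) ℝ) ((g⁻¹ • τ : ℍ) : ℂ) =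
      denom (h : GL (Fin 2) ℝ) (τ : ℂ) := by
  have hh' : (h : GL (Fin 2) ℝ) • τ = τ := hh
  have hcoe : (g⁻¹ • τ : ℍ) = (g : GL (Fin 2) ℝ)⁻¹ • τ := by
    rw [← map_inv, ← map_inv]; rfl
  have h1 : denom (1 : GL (Fin 2) ℝ) ((g⁻¹ • τ : ℍ) : ℂ) = 1 := by simp [denom_one]
  have hσ : ∀ a : SL(2, ℤ), ∀ z : ℂ, σ (a : GL (Fin 2) ℝ) z = z := fun a z => by simp [σ]
  rw [map_mul, map_mul, map_mul, map_mul, map_inv, map_inv, denom_cocycle_σ, denom_cocycle_σ,
    hσ, hcoe, smul_inv_smul, hh']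
  conv_rhs => rw [← mul_one (denom (h : GL (Fin 2) ℝ) (τ : ℂ)), ← h1, ← inv_mul_cancel
    (g : GL (Fin 2) ℝ), denom_cocycle_σ, hσ, hcoe, smul_inv_smul]
  simp [σ]
  ring

/-- If `h` fixes `τ` and `h ^ s` fixes `q`, then `(c τ + d) ^ (2 s v) = 1` for every value `v`. -/
theorem denom_zpow_val_eq_one {h : SL(2, ℤ)} {τ : ℍ} (hh : h • τ = τ) {s : ℕ}
    {q : Cosets.X0 N} (hs : h ^ s • q = q) (x : MFField N) :
    (denom (h : GL (Fin 2) ℝ) (τ : ℂ) ^ 2) ^ ((s : ℤ) * log (ptValAt τ q x)) = 1 := by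
  rcases eq_or_ne x 0 with rfl | hx
  · simp
  induction q using QuotientGroup.induction_on with
  | H g =>
    obtain ⟨k, f, f', hf, hf', e⟩ := FormOrder.exists_rep hx
    set δ : SL(2, ℤ) := g⁻¹ * h ^ s * g
    have hδ : δ ∈ Gamma0 N := by
      have h1 : (QuotientGroup.mk (h ^ s * g) : Cosets.X0 N) = QuotientGroup.mk g := hs
      have h2 := (Gamma0 N).inv_mem (QuotientGroup.eq.1 h1)
      simpa [δ, mul_assoc] using h2
    have hsfix : h ^ s • τ = τ := smul_pow_fixed hh s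
    have hfix : δ • (g⁻¹ • τ) = g⁻¹ • τ := by
      rw [show δ = g⁻¹ * h ^ s * g from rfl, SemigroupAction.mul_smul, smul_inv_smul,
        SemigroupAction.mul_smul, hsfix]
    have hden : denom (δ : GL (Fin 2) ℝ) ((g⁻¹ • τ : ℍ) : ℂ) =
        denom (h : GL (Fin 2) ℝ) (τ : ℂ) ^ s := by
      rw [denom_conj_fixed hsfix, denom_pow_fixed hh]
    have k1 := denom_zpow_eq_one_of_fixed (ModularFormClass.holo f') (mform_coe_ne_zero hf')
      (slash_gamma0_eq f' hδ) hfix
    have k2 := denom_zpow_eq_one_of_fixed (ModularFormClass.holo f) (mform_coe_ne_zero hf)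
      (slash_gamma0_eq f hδ) hfix
    rw [hden, ← zpow_natCast (denom _ _) s, ← zpow_mul] at k1 k2
    rw [ptValAt_mk, ptVal, (ptOrder N _).log_val hf hf' e]
    show _ ^ ((s : ℤ) * (ptOrd _ _ - ptOrd _ _)) = (1 : ℂ)
    have hd0 : denom (h : GL (Fin 2) ℝ) (τ : ℂ) ≠ 0 := denom_ne_zero _ τ
    rw [← zpow_natCast _ 2, ← zpow_mul]
    calc _ = (denom (h : GL (Fin 2) ℝ) (τ : ℂ) ^ ((s : ℤ) * (k + 2 * ptOrd f' (g⁻¹ • τ)))) /
          denom (h : GL (Fin 2) ℝ) (τ : ℂ) ^ ((s : ℤ) * (k + 2 * ptOrd f (g⁻¹ • τ))) := by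
            rw [← zpow_sub₀ hd0]; congr 1; push_cast; ring
      _ = 1 := by rw [k1, k2, div_one]
where
  smul_pow_fixed {h : SL(2, ℤ)} {τ : ℍ} (hh : h • τ = τ) (s : ℕ) : h ^ s • τ = τ := by
    induction s with
    | zero => simp
    | succ s ih => rw [pow_succ, SemigroupAction.mul_smul, hh, ih]

/-! ### Cusps -/

variable [NeZero N]

theorem slash_periodic_data {k : ℤ} (f : MForm N k) (a : SL(2, ℤ)) :
    Periodic (((f : ℍ → ℂ) ∣[k] a) ∘ ofComplex) (N : ℝ) ∧
      MDiff ((f : ℍ → ℂ) ∣[k] a) ∧ IsBoundedAtImInfty ((f : ℍ → ℂ) ∣[k] a) :=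
  ⟨periodic_slash_gamma0 f a, (ModularFormClass.holo f).slash k _,
    ModularFormClass.bdd_at_infty_slash f a⟩

variable (N) in
/-- The order (in `q_N`) at the cusp `a • ∞`. -/
def cuspOrder (a : SL(2, ℤ)) : FormOrder N where
  toFun k F := ((qExpansion (N : ℝ) (F ∣[k] a)).order.toNat : ℤ)
  map_mul {k l} f g hf hg := by
    have h1 := qExpansion_slash_ne_zero f (mform_coe_ne_zero hf) a
    have h2 := qExpansion_slash_ne_zero g (mform_coe_ne_zero hg) a
    rw [order_qExpansion_slash_mul f g a, ENat.toNat_add (PowerSeries.order_eq_top.not.2 h1)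
      (PowerSeries.order_eq_top.not.2 h2)]
    push_cast
    rfl
  map_add {k} f g hf hg hfg := by
    have h1 := qExpansion_slash_ne_zero f (mform_coe_ne_zero hf) a
    have h2 := qExpansion_slash_ne_zero g (mform_coe_ne_zero hg) a
    have h3 := qExpansion_slash_ne_zero (f + g) (mform_coe_ne_zero hfg) a
    rw [FunLike.coe_add] at h3
    have hle : min (qExpansion (N : ℝ) ((f : ℍ → ℂ) ∣[k] a)).order
        (qExpansion (N : ℝ) ((g : ℍ → ℂ) ∣[k] a)).order ≤
        (qExpansion (N : ℝ) (((f : ℍ → ℂ) + g) ∣[k] a)).order := by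
      rw [SlashAction.add_slash, qExpansion_add (analyticAt_cuspFunction_slash_gamma0 f a)
        (analyticAt_cuspFunction_slash_gamma0 g a)]
      exact PowerSeries.min_order_le_order_add _ _
    rw [← PowerSeries.coe_toNat_order h1, ← PowerSeries.coe_toNat_order h2,
      ← PowerSeries.coe_toNat_order h3] at hle
    rcases min_le_iff.1 hle with hle | hle
    · exact (min_le_left _ _).trans (by exact_mod_cast hle)
    · exact (min_le_right _ _).trans (by exact_mod_cast hle)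
  map_const c hc := by
    have h1 : AnalyticAt ℂ (cuspFunction (N : ℝ) (1 : ℍ → ℂ)) 0 :=
      analyticAt_cuspFunction_zero natCast_pos_real (fun _ => rfl) mdifferentiable_const
        (Filter.const_boundedAtFilter _ _)
    have h0 : (fun _ : ℍ => c) = c • (1 : ℍ → ℂ) := by funext z; simp
    rw [h0, ModularForm.SL_smul_slash, ModularForm.is_invariant_one, qExpansion_smul h1,
      qExpansion_one]
    simp [PowerSeries.smul_eq_C_mul, PowerSeries.order_zero_of_unit,
      (IsUnit.mk0 c hc).map PowerSeries.C]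

/-- The valuation of `MFField N` at the cusp `q⁻¹ • ∞` of a coset `q`. -/
def cuspValAt (q : Cosets.X0 N) : Valuation (MFField N) ℤᵐ⁰ := (cuspOrder N q.out⁻¹).val

theorem cuspValAt_mk (g : SL(2, ℤ)) :
    cuspValAt (QuotientGroup.mk g : Cosets.X0 N) = (cuspOrder N g⁻¹).val := by
  obtain ⟨γ, hγ⟩ := QuotientGroup.mk_out_eq_mul (Gamma0 N) g
  refine FormOrder.val_congr fun k f _ => ?_
  show ((qExpansion (N : ℝ) ((f : ℍ → ℂ) ∣[k] _)).order.toNat : ℤ) = _
  rw [hγ, mul_inv_rev, SlashAction.slash_mul, slash_gamma0_eq f ((Gamma0 N).inv_mem γ.2)]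
  rfl

theorem coeff_unique_of_hasSum {h : ℝ} (hh : 0 < h) {F : ℍ → ℂ}
    (han : AnalyticAt ℂ (cuspFunction h F) 0) {c : ℕ → ℂ}
    (hF : ∀ τ : ℍ, HasSum (fun m => c m • Periodic.qParam h τ ^ m) (F τ)) (m : ℕ) :
    c m = (qExpansion h F).coeff m := by
  have h1 := (hasFPowerSeriesOnBall_cuspFunction hh han hF).hasFPowerSeriesAt
  have h2 := han.hasFPowerSeriesAt
  have := congr_arg (FormalMultilinearSeries.coeff · m) (h1.eq_formalMultilinearSeries h2)
  simpa [qExpansion_coeff, FormalMultilinearSeries.coeff_ofScalars, div_eq_mul_inv, mul_comm]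
    using this

theorem qExpansion_slash_T_zpow {k : ℤ} (F : ℍ → ℂ) (hper : Periodic (F ∘ ofComplex) (N : ℝ))
    (hF : MDiff F) (hb : IsBoundedAtImInfty F)
    (han : ∀ n : ℤ, AnalyticAt ℂ (cuspFunction (N : ℝ) (F ∣[k] (ModularGroup.T ^ n))) 0)
    (n : ℤ) (i : ℕ) :
    (qExpansion (N : ℝ) (F ∣[k] (ModularGroup.T ^ n))).coeff i =
      Complex.exp (2 * Real.pi * Complex.I * n / N) ^ i * (qExpansion (N : ℝ) F).coeff i := by
  refine (coeff_unique_of_hasSum (F := F ∣[k] (ModularGroup.T ^ n))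
    (c := fun i => Complex.exp (2 * Real.pi * Complex.I * n / N) ^ i *
      (qExpansion (N : ℝ) F).coeff i) natCast_pos_real (han n) (fun τ => ?_) i).symm
  have hs := hasSum_qExpansion natCast_pos_real hper hF hb (ModularGroup.T ^ n • τ)
  have hval : (F ∣[k] (ModularGroup.T ^ n)) τ = F (ModularGroup.T ^ n • τ) := by
    rw [ModularForm.SL_slash_apply]
    simp [denom, ModularGroup.coe_T_zpow, -map_zpow]
  rw [hval]
  have hq : Periodic.qParam (N : ℝ) ((ModularGroup.T ^ n • τ : ℍ) : ℂ) =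
      Complex.exp (2 * Real.pi * Complex.I * n / N) * Periodic.qParam (N : ℝ) (τ : ℂ) := by
    rw [ModularGroup.coe_T_zpow_smul_eq]
    simp only [Periodic.qParam, ← Complex.exp_add]
    congr 1
    push_cast
    ring
  rw [hq] at hs
  simpa [mul_pow, mul_assoc, mul_comm, mul_left_comm] using hs

theorem cuspValAt_T_zpow_smul (n : ℤ) (q : Cosets.X0 N) :
    cuspValAt (ModularGroup.T ^ n • q) = cuspValAt q := by
  induction q using QuotientGroup.induction_on with
  | H g =>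
    rw [show ModularGroup.T ^ n • (QuotientGroup.mk g : Cosets.X0 N) =
      QuotientGroup.mk (ModularGroup.T ^ n * g) from rfl, cuspValAt_mk, cuspValAt_mk]
    refine FormOrder.val_congr fun k f hf => ?_
    show ((qExpansion (N : ℝ) ((f : ℍ → ℂ) ∣[k] _)).order.toNat : ℤ) =
      (qExpansion (N : ℝ) ((f : ℍ → ℂ) ∣[k] _)).order.toNat
    rw [mul_inv_rev, SlashAction.slash_mul, ← zpow_neg]
    obtain ⟨h1, h2, h3⟩ := slash_periodic_data f g⁻¹
    have han : ∀ m : ℤ, AnalyticAt ℂ (cuspFunction (N : ℝ)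
        (((f : ℍ → ℂ) ∣[k] g⁻¹) ∣[k] (ModularGroup.T ^ m))) 0 := fun m => by
      rw [← SlashAction.slash_mul]; exact analyticAt_cuspFunction_slash_gamma0 f _
    have key : ∀ m : ℤ, (qExpansion (N : ℝ) ((f : ℍ → ℂ) ∣[k] g⁻¹)).order ≤
        (qExpansion (N : ℝ) (((f : ℍ → ℂ) ∣[k] g⁻¹) ∣[k] (ModularGroup.T ^ m))).order := fun m => by
      refine PowerSeries.le_order _ _ fun i hi => ?_
      rw [qExpansion_slash_T_zpow _ h1 h2 h3 han m i, PowerSeries.coeff_of_lt_order i hi, mul_zero]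
    refine congrArg (fun e : ℕ∞ => (e.toNat : ℤ))
      (le_antisymm (PowerSeries.le_order _ _ fun i hi => ?_) (key (-n)))
    have h := qExpansion_slash_T_zpow _ h1 h2 h3 han (-n) i
    rw [PowerSeries.coeff_of_lt_order i hi] at h
    exact ((mul_eq_zero.1 h.symm).resolve_left (pow_ne_zero _ (Complex.exp_ne_zero _)))

theorem dvd_mul_log_cuspValAt {s : ℕ} {q : Cosets.X0 N}
    (hs : ModularGroup.T ^ (s : ℤ) • q = q) (x : MFField N) :
    (N : ℤ) ∣ (s : ℤ) * log (cuspValAt q x) := by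
  rcases eq_or_ne x 0 with rfl | hx
  · simp
  induction q using QuotientGroup.induction_on with
  | H g =>
    obtain ⟨k, f, f', hf, hf', e⟩ := FormOrder.exists_rep hx
    rw [cuspValAt_mk, (cuspOrder N g⁻¹).log_val hf hf' e, mul_sub]
    have hδ : g⁻¹ * ModularGroup.T ^ (s : ℤ) * g ∈ Gamma0 N := by
      have h1 : (QuotientGroup.mk (ModularGroup.T ^ (s : ℤ) * g) : Cosets.X0 N) =
        QuotientGroup.mk g := hs
      simpa [mul_assoc] using (Gamma0 N).inv_mem (QuotientGroup.eq.1 h1)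
    have key : ∀ F : MForm N k, F ≠ 0 →
        (N : ℤ) ∣ (s : ℤ) * (cuspOrder N g⁻¹).toFun k F := by
      intro F hF
      obtain ⟨h1, h2, h3⟩ := slash_periodic_data F g⁻¹
      have han : ∀ m : ℤ, AnalyticAt ℂ (cuspFunction (N : ℝ)
          (((F : ℍ → ℂ) ∣[k] g⁻¹) ∣[k] (ModularGroup.T ^ m))) 0 := fun m => by
        rw [← SlashAction.slash_mul]; exact analyticAt_cuspFunction_slash_gamma0 F _
      set r := (qExpansion (N : ℝ) ((F : ℍ → ℂ) ∣[k] g⁻¹)).order.toNat with hr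
      have hinv : ((F : ℍ → ℂ) ∣[k] g⁻¹) ∣[k] (ModularGroup.T ^ (s : ℤ)) =
          (F : ℍ → ℂ) ∣[k] g⁻¹ := by
        rw [← SlashAction.slash_mul]
        conv_lhs => rw [show g⁻¹ * ModularGroup.T ^ (s : ℤ) =
          (g⁻¹ * ModularGroup.T ^ (s : ℤ) * g) * g⁻¹ by group]
        rw [SlashAction.slash_mul, slash_gamma0_eq F hδ]
      have hne := qExpansion_slash_ne_zero F (mform_coe_ne_zero hF) g⁻¹
      have hc := PowerSeries.coeff_order hne
      rw [← hr] at hc
      have h := qExpansion_slash_T_zpow _ h1 h2 h3 han (s : ℤ) r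
      rw [hinv] at h
      have h' : Complex.exp (2 * Real.pi * Complex.I * (s : ℤ) / N) ^ r = 1 :=
        mul_right_cancel₀ hc (by rw [one_mul]; exact h.symm)
      rw [← Complex.exp_nat_mul, Complex.exp_eq_one_iff] at h'
      obtain ⟨d, hd⟩ := h'
      refine ⟨d, ?_⟩
      show (s : ℤ) * (r : ℤ) = _
      have hN : (N : ℂ) ≠ 0 := by exact_mod_cast NeZero.ne N
      have hpi : (2 * (Real.pi : ℂ) * Complex.I) ≠ 0 := by simp [Real.pi_ne_zero]
      field_simp at hd
      have : ((s : ℤ) : ℂ) * (r : ℤ) = (N : ℤ) * d := by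
        apply mul_left_cancel₀ hpi
        push_cast at hd ⊢
        linear_combination 2 * (Real.pi : ℂ) * Complex.I * hd
      exact_mod_cast this
    exact dvd_sub (key f' hf') (key f hf)

end Fermat.Agent.MF.PlaceOrbits
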