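import Fermat.Agent.MF.PlaceOrbits.Main
import Fermat.Agent.MF.Coeff.FieldK
import Fermat.Agent.MF.Cosets.Elliptic

/-!
The field data for `MFField N` and for `laurentBaseChange K (modularFunctionFieldFull N)`,
the classification of all places by points and cusps, and the fibre counts of `j`.
-/

set_option autoImplicit false

noncomputable section

open UpperHalfPlane CongruenceSubgroup AlgebraicCurve IntermediateField WithZero ModularCurve
open scoped ModularForm MatrixGroups

namespace Fermat.Agent.MF.PlaceOrbits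

/-- `K(j, j(dτ))` inside `MF_N` through `ι`. -/
def jData {K : Type*} [Field K] [Algebra ℚ K] (ι : K →+* ℂ) (N : ℕ) [NeZero N] :
    JData ι N (laurentBaseChange K (modularFunctionFieldFull N)) where
  j := Coeff.jElem K N
  mem_MF x hx := by
    rw [MFField_eq_laurentBaseChange]
    exact Coeff.coeffMap_mem_laurentBaseChange' ι hx
  map_j := coeffMap_jqModC ι
  finrank_eq := Coeff.finrank_adjoin_jElem K N

theorem finrank_adjoin_mfJ (N : ℕ) [NeZero N] :
    Module.finrank ℂ⟮mfJ N⟯ (MFField N) = dedekindPsi N := by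
  have h : (ℂ⟮mfJ N⟯).map (MFField N).val = ℂ⟮jC⟯ := by
    rw [adjoin_map, Set.image_singleton]
    rfl
  rw [← IntermediateField.relfinrank_top_right, ← IntermediateField.relfinrank_map_map _ _
    (MFField N).val, h, ← AlgHom.fieldRange_eq_map, fieldRange_val,
    MFField_eq_laurentBaseChange]
  exact Coeff.relfinrank_laurentBaseChange_full ℂ N

/-- `MF_N` itself. -/
def jDataMF (N : ℕ) [NeZero N] : JData (RingHom.id ℂ) N (MFField N) where
  j := mfJ N
  mem_MF x hx := by rwa [coeffMap_id]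
  map_j := coeffMap_id _
  finrank_eq := finrank_adjoin_mfJ N

theorem jDataMF_emb (N : ℕ) [NeZero N] (x : MFField N) : (jDataMF N).emb x = x :=
  Subtype.ext (coeffMap_id _)

theorem jDataMF_pointVal (N : ℕ) [NeZero N] (τ : ℍ) (q : Cosets.X0 N) (x : MFField N) :
    (jDataMF N).pointVal τ q x = ptValAt τ q x := by
  rw [JData.pointVal, Valuation.comap_apply, jDataMF_emb]

theorem jDataMF_cuspVal (N : ℕ) [NeZero N] (q : Cosets.X0 N) (x : MFField N) :
    (jDataMF N).cuspVal q x = cuspValAt q x := by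
  rw [JData.cuspVal, Valuation.comap_apply, jDataMF_emb]

namespace JData

variable {K : Type*} [Field K] [IsAlgClosed K] {ι : K →+* ℂ} {N : ℕ} [NeZero N]
  {E : IntermediateField K (LaurentSeries K)} (D : JData ι N E)

include D in
/-- Every place lies over some value of `j`, or over `∞`. -/
theorem ord_j_cases (P : Place K E) :
    0 < P.ord D.j⁻¹ ∨ ∃ a : K, 0 < P.ord (D.j - algebraMap K E a) := by
  have := D.isFunctionField
  rcases lt_or_ge (P.ord D.j) 0 with h | h
  · left
    rw [P.ord_inv]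
    omega
  · right
    have hmem := pl_mem_of_ord_nonneg P h
    have : Algebra.IsIntegral K P.ResidueField := Algebra.IsIntegral.of_finite K P.ResidueField
    obtain ⟨a, ha⟩ := (IsAlgClosed.algebraMap_bijective_of_isIntegral (k := K)
      (K := P.ResidueField)).2 (IsLocalRing.residue P.toValuationSubring ⟨D.j, hmem⟩)
    refine ⟨a, ?_⟩
    have hz : (⟨D.j, hmem⟩ - algebraMap K P.toValuationSubring a) ∈
        IsLocalRing.maximalIdeal P.toValuationSubring := by
      rw [← IsLocalRing.residue_eq_zero_iff, map_sub, sub_eq_zero]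
      exact ha.symm
    have hne : D.j - algebraMap K E a ≠ 0 := fun h0 => D.transcendental_j
      (by rw [sub_eq_zero.1 h0]; exact isAlgebraic_algebraMap a)
    have h0 := pl_ord_nonneg_of_mem P
      (⟨D.j, hmem⟩ - algebraMap K P.toValuationSubring a : P.toValuationSubring).2
    rcases h0.eq_or_lt with h0 | h0
    · exfalso
      refine hz ?_
      rw [← P.adicValuation_coe_eq_one_iff]
      have hv := P.adicValuation_ne_zero hne
      have : log (P.adicValuation (D.j - algebraMap K E a)) = 0 := by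
        simp only [Place.ord, AddSubgroupClass.coe_sub, Place.coe_algebraMap] at h0
        omega
      simp only [AddSubgroupClass.coe_sub, Place.coe_algebraMap]
      rw [← WithZero.exp_log hv, this, exp_zero]
    · simpa using h0

/-- **Every place is a point or a cusp.** -/
theorem place_cases (P : Place K E) :
    (∃ (τ : ℍ) (h : SL(2, ℤ)) (q : Cosets.X0 N), IsStabGen τ h ∧
      h ^ orbitSize h q • q = q ∧
      (∀ x : E, x ∈ P.toValuationSubring ↔ D.pointVal τ q x ≤ 1) ∧
      ∀ x : E, (kleinJDegree τ : ℤ) * P.ord x = orbitSize h q * -log (D.pointVal τ q x)) ∨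
    (∃ q : Cosets.X0 N, ModularGroup.T ^ orbitSize ModularGroup.T q • q = q ∧
      (∀ x : E, x ∈ P.toValuationSubring ↔ D.cuspVal q x ≤ 1) ∧
      ∀ x : E, (N : ℤ) * P.ord x = orbitSize ModularGroup.T q * -log (D.cuspVal q x)) := by
  rcases D.ord_j_cases P with hP | ⟨a, hP⟩
  · obtain ⟨π, hπ⟩ := D.exists_cuspEquiv
    obtain ⟨o, ho⟩ := π.surjective ⟨P, hP⟩
    induction o using Quotient.inductionOn' with
    | h q =>
      obtain ⟨hm, -, hord⟩ := hπ q
      rw [ho] at hm hord
      exact Or.inr ⟨q, pow_orbitSize_smul _ q, hm, hord⟩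
  · obtain ⟨τ, hτ⟩ := kleinJ_surjective (ι a)
    obtain ⟨h, hg⟩ := exists_isStabGen τ
    obtain ⟨π, hπ⟩ := D.exists_pointEquiv hτ hg
    obtain ⟨o, ho⟩ := π.surjective ⟨P, hP⟩
    induction o using Quotient.inductionOn' with
    | h q =>
      obtain ⟨hm, -, hord⟩ := hπ q
      rw [ho] at hm hord
      exact Or.inl ⟨τ, h, q, hg, pow_orbitSize_smul _ q, hm, hord⟩

theorem card_fibre_eq {a : K} {τ : ℍ} (hτ : kleinJ τ = ι a) {h : SL(2, ℤ)} (hg : IsStabGen τ h) :
    Nat.card {P : Place K E // 0 < P.ord (D.j - algebraMap K E a)} = Nat.card (HOrbits N h) := by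
  obtain ⟨π, -⟩ := D.exists_pointEquiv hτ hg
  exact (Nat.card_congr π).symm

/-- Unramified values of `j`. -/
theorem card_fibre {a : K} (h0 : a ≠ 0) (h1 : a ≠ 1728) :
    Nat.card {P : Place K E // 0 < P.ord (D.j - algebraMap K E a)} = dedekindPsi N := by
  obtain ⟨τ, hτ⟩ := kleinJ_surjective (ι a)
  have hg : IsStabGen τ 1 := isStabGen_one (by rw [hτ]; exact (map_ne_zero ι).2 h0)
    (by rw [hτ, ← map_ofNat ι 1728]; exact fun e => h1 (ι.injective e))
  rw [D.card_fibre_eq hτ hg, ← Cosets.card_X0]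
  refine (Nat.card_congr (Equiv.ofBijective (fun q : Cosets.X0 N => (Quotient.mk'' q :
    HOrbits N 1)) ⟨fun q q' e => ?_, fun o => ?_⟩)).symm
  · obtain ⟨⟨g, hg'⟩, e'⟩ := Quotient.eq''.1 e
    rw [Subgroup.zpowers_one_eq_bot, Subgroup.mem_bot] at hg'
    subst hg'
    exact ((one_smul SL(2, ℤ) q').symm.trans e').symm
  · induction o using Quotient.inductionOn' with
    | h q => exact ⟨q, rfl⟩

theorem card_fibre_zero :
    3 * Nat.card {P : Place K E // 0 < P.ord (D.j - algebraMap K E 0)} =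
      dedekindPsi N + 2 * nuThree N := by
  rw [D.card_fibre_eq (kleinJ_rhoPt.trans (map_zero ι).symm) isStabGen_rhoPt]
  exact Cosets.three_mul_card_orbits_ST N

theorem card_fibre_1728 :
    2 * Nat.card {P : Place K E // 0 < P.ord (D.j - algebraMap K E 1728)} =
      dedekindPsi N + nuTwo N := by
  rw [D.card_fibre_eq (kleinJ_I.trans (map_ofNat ι 1728).symm) isStabGen_I]
  exact Cosets.two_mul_card_orbits_S N

theorem card_poles :
    Nat.card {P : Place K E // P.ord D.j < 0} = cuspCount N := by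
  obtain ⟨π, -⟩ := D.exists_cuspEquiv
  rw [← Cosets.card_TOrbits, show Nat.card (Cosets.TOrbits N) = Nat.card (HOrbits N ModularGroup.T)
    from rfl, Nat.card_congr π]
  exact Nat.card_congr (Equiv.subtypeEquivRight fun P => by rw [P.ord_inv]; omega)

theorem sum_poles (S : Finset (Place K E)) (hS : ∀ P, P ∈ S ↔ P.ord D.j < 0) :
    ∑ P ∈ S, P.ord D.j = -(dedekindPsi N : ℤ) := by
  have hgen : K⟮D.j⁻¹⟯ = K⟮D.j⟯ := by
    refine le_antisymm (adjoin_simple_le_iff.2 ?_) (adjoin_simple_le_iff.2 ?_)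
    · exact inv_mem (mem_adjoin_simple_self K _)
    · simpa using inv_mem (mem_adjoin_simple_self K D.j⁻¹)
  obtain ⟨S', hS', hsum⟩ := D.sum_ord_eq hgen
    (fun halg => D.transcendental_j (by simpa using halg.inv))
  have : S = S' := by
    ext P
    rw [hS, hS', P.ord_inv]
    omega
  subst this
  rw [← hsum, ← Finset.sum_neg_distrib]
  exact Finset.sum_congr rfl fun P _ => by rw [P.ord_inv, neg_neg]

/-- The place of a point `σ`, with its ramification. -/
theorem exists_place_at (σ : ℍ) {a : K} (hσ : kleinJ σ = ι a) :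
    ∃ (P : Place K E) (h : SL(2, ℤ)), IsStabGen σ h ∧
      (∀ x : E, x ∈ P.toValuationSubring ↔ ptVal N σ (D.emb x) ≤ 1) ∧
      P.ord (D.j - algebraMap K E a) =
        orbitSize h (QuotientGroup.mk 1 : Cosets.X0 N) ∧
      ∀ x : E, (kleinJDegree σ : ℤ) * P.ord x =
        orbitSize h (QuotientGroup.mk 1 : Cosets.X0 N) * -log (ptVal N σ (D.emb x)) := by
  obtain ⟨h, hg⟩ := exists_isStabGen σ
  obtain ⟨π, hπ⟩ := D.exists_pointEquiv hσ hg
  obtain ⟨hm, he, hord⟩ := hπ (QuotientGroup.mk 1)
  have e : ∀ x : E, D.pointVal σ (QuotientGroup.mk 1) x = ptVal N σ (D.emb x) := fun x => by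
    rw [JData.pointVal, Valuation.comap_apply, ptValAt_mk, inv_one, one_smul]
  refine ⟨_, h, hg, fun x => ?_, he, fun x => ?_⟩
  · rw [hm, e]
  · rw [hord, e]

/-- Two points give the same valuation ring only if they are `Γ₀(N)`-equivalent. -/
theorem ptVal_equiv_iff {σ σ' : ℍ} {a : K} (hσ : kleinJ σ = ι a) :
    (∀ x : E, ptVal N σ (D.emb x) ≤ 1 ↔ ptVal N σ' (D.emb x) ≤ 1) ↔
      ∃ γ ∈ Gamma0 N, γ • σ = σ' := by
  constructor
  · intro hiff
    have hpv : ∀ g : SL(2, ℤ), ∀ x : E,
        D.pointVal σ (QuotientGroup.mk g) x = ptVal N (g⁻¹ • σ) (D.emb x) := fun g x => by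
      rw [JData.pointVal, Valuation.comap_apply, ptValAt_mk]
    -- `σ'` has the same value of `j`
    have hσ' : kleinJ σ' = ι a := by
      set t := D.j - algebraMap K E a
      have h1 := D.pointVal_j_sub hσ (QuotientGroup.mk (1 : SL(2, ℤ)))
      rw [hpv, inv_one, one_smul] at h1
      have hpos := kleinJDegree_pos σ
      have h2 : ¬ ptVal N σ' (D.emb t⁻¹) ≤ 1 := by
        rw [← hiff, map_inv₀, map_inv₀, h1, ← exp_neg, ← exp_zero, exp_le_exp]
        omega
      by_contra hne
      refine h2 ?_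
      rw [map_inv₀, map_inv₀, map_sub, D.emb_algebraMap, D.emb_j]
      have e := jElt_sub_eq (mfJ_mul_qL_cuspD N) (ι a)
      have hval := ((ptOrder N σ').log_val (cuspE_sub_smul_ne_zero _) (cuspD_ne_zero N) e)
      have hz : mfJ N - algebraMap ℂ (MFField N) (ι a) ≠ 0 := by
        rw [← D.emb_j, ← D.emb_algebraMap, ← map_sub]
        exact (map_ne_zero D.emb).2 fun h0 => D.transcendental_j
          (by rw [sub_eq_zero.1 h0]; exact isAlgebraic_algebraMap a)
      have hv : ptVal N σ' (mfJ N - algebraMap ℂ (MFField N) (ι a)) = 1 := by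
        rw [ptVal, ← exp_log ((ptOrder N σ').val.ne_zero_iff.2 hz), hval]
        show exp (ptOrd (cuspD N) σ' - ptOrd (cuspE N - ι a • cuspD N : MForm N 12) σ') = 1
        rw [ptOrd_eq_zero_of_ne_zero (ModularFormClass.holo _)
          (by rw [coe_cuspD]; exact ModularForm.discriminant_ne_zero σ'),
          ptOrd_eq_zero_of_ne_zero (ModularFormClass.holo _) ?_, sub_zero, exp_zero]
        have e' : (cuspE N - ι a • cuspD N : MForm N 12) σ' =
            (kleinJ σ' - ι a) * ModularForm.discriminant σ' := by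
          simp [coe_cuspE, coe_cuspD, sub_mul, kleinJ_mul_discriminant]
        rw [e']
        exact mul_ne_zero (sub_ne_zero.2 hne) (ModularForm.discriminant_ne_zero σ')
      rw [hv, inv_one]
    obtain ⟨g, hgσ⟩ := kleinJ_eq_kleinJ_iff.1 (hσ.trans hσ'.symm)
    obtain ⟨h, hg⟩ := exists_isStabGen σ
    obtain ⟨π, hπ⟩ := D.exists_pointEquiv hσ hg
    have heq : π (Quotient.mk'' (QuotientGroup.mk 1)) = π (Quotient.mk'' (QuotientGroup.mk g⁻¹)) := by
      refine Subtype.ext (Place.ext (SetLike.ext fun x => ?_))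
      rw [(hπ _).1, (hπ _).1, hpv, hpv, inv_one, one_smul, inv_inv, hgσ, hiff]
    obtain ⟨⟨k, n, rfl⟩, hn⟩ := Quotient.eq''.1 (π.injective heq).symm
    have hmem : (h ^ n * 1)⁻¹ * g⁻¹ ∈ Gamma0 N := QuotientGroup.eq.1 hn
    rw [mul_one] at hmem
    refine ⟨g * h ^ n, by simpa [mul_inv_rev] using (Gamma0 N).inv_mem hmem, ?_⟩
    rw [SemigroupAction.mul_smul, (MulAction.stabilizer _ σ).zpow_mem hg.1 n, hgσ]
  · rintro ⟨γ, hγ, rfl⟩ x
    rw [ptVal_smul hγ]

end JData

/-- Every place of `MF_N` computes orders at a point or at a cusp. -/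
theorem isPlaceAt_or_isPlaceAtCusp (N : ℕ) [NeZero N] (P : Place ℂ (MFField N)) :
    (∃ τ, IsPlaceAt N P τ) ∨ ∃ γ, IsPlaceAtCusp N P γ := by
  rcases (jDataMF N).place_cases P with ⟨τ, h, q, hg, -, hm, hord⟩ | ⟨q, -, hm, hord⟩
  · left
    obtain ⟨π, hπ⟩ : ∃ π : MFField N, π ≠ 0 ∧ P.ord π = 1 := FF.exists_ord_eq_one P
    set s := orbitSize h q
    have h1 := hord π
    rw [hπ.2, mul_one] at h1
    refine ⟨q.out⁻¹ • τ, (-log (ptValAt τ q π)).toNat, ?_, fun z hz => ?_⟩
    · rw [jDataMF_pointVal] at h1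
      have := kleinJDegree_pos τ
      by_contra hle
      have : (s : ℤ) * -log (ptValAt τ q π) ≤ 0 :=
        mul_nonpos_of_nonneg_of_nonpos (by omega) (by omega)
      omega
    · have h2 := hord z
      rw [jDataMF_pointVal] at h1 h2
      have hs := orbitSize_pos h q
      have hpos : 0 < -log (ptValAt τ q π) := by
        by_contra hle
        have : (s : ℤ) * -log (ptValAt τ q π) ≤ 0 :=
          mul_nonpos_of_nonneg_of_nonpos (by omega) (by omega)
        have := kleinJDegree_pos τ
        omega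
      rw [mfOrdAt_eq_neg_log_ptVal _ hz, Int.toNat_of_nonneg hpos.le]
      have h3 : (s : ℤ) * -log (ptValAt τ q z) = s * (-log (ptValAt τ q π) * P.ord z) := by
        rw [← h2, h1]; ring
      exact mul_left_cancel₀ (by exact_mod_cast hs.ne') h3
  · right
    obtain ⟨π, hπ⟩ : ∃ π : MFField N, π ≠ 0 ∧ P.ord π = 1 := FF.exists_ord_eq_one P
    set s := orbitSize ModularGroup.T q
    have h1 := hord π
    rw [hπ.2, mul_one, jDataMF_cuspVal] at h1
    have hs := orbitSize_pos ModularGroup.T q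
    have hpos : 0 < -log (cuspValAt q π) := by
      by_contra hle
      have : (s : ℤ) * -log (cuspValAt q π) ≤ 0 :=
        mul_nonpos_of_nonneg_of_nonpos (by omega) (by omega)
      have := NeZero.pos N
      omega
    refine ⟨q.out⁻¹, (-log (cuspValAt q π)).toNat, by omega, fun k F G hF hG z hz => ?_⟩
    have h2 := hord z
    rw [jDataMF_cuspVal] at h2
    have h3 : (s : ℤ) * -log (cuspValAt q z) = s * (-log (cuspValAt q π) * P.ord z) := by
      rw [← h2, h1]; ring
    have h4 := mul_left_cancel₀ (by exact_mod_cast hs.ne') h3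
    rw [Int.toNat_of_nonneg hpos.le, ← h4, cuspValAt,
      (cuspOrder N q.out⁻¹).log_val hF hG hz, neg_sub]
    rfl

end Fermat.Agent.MF.PlaceOrbits
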