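import Fermat.Agent.MF.KleinJ
import Fermat.Agent.MF.PlaceOrbits.Valuations

/-!
Generators of the stabiliser of a point: `S` at `i`, `S * T` at `ρ`, transported along `SL(2, ℤ)`.
-/

set_option autoImplicit false

noncomputable section

open UpperHalfPlane ModularForm EisensteinSeries
open scoped ModularForm MatrixGroups Manifold Real

namespace Fermat.Agent.MF.PlaceOrbits

/-- `ρ = (-1 + √-3)/2`. -/
def rhoPt : ℍ := ⟨⟨-1 / 2, Real.sqrt 3 / 2⟩, by simp⟩

theorem coe_rhoPt_quadratic : (rhoPt : ℂ) ^ 2 + rhoPt + 1 = 0 := by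
  have h : Real.sqrt 3 * Real.sqrt 3 = 3 := Real.mul_self_sqrt (by norm_num)
  apply Complex.ext <;> simp [rhoPt, pow_two] <;> nlinarith [h]

theorem denom_ST (z : ℂ) :
    denom ((ModularGroup.S * ModularGroup.T : SL(2, ℤ)) : GL (Fin 2) ℝ) z = z + 1 := by
  simp [denom, ModularGroup.coe_S, ModularGroup.coe_T, -map_mul]

theorem denom_S (z : ℂ) : denom ((ModularGroup.S : SL(2, ℤ)) : GL (Fin 2) ℝ) z = z := by
  simp [denom, ModularGroup.coe_S]

theorem ST_smul_rhoPt : (ModularGroup.S * ModularGroup.T) • rhoPt = rhoPt := by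
  rw [SemigroupAction.mul_smul, UpperHalfPlane.modular_S_smul]
  ext1
  have h := coe_rhoPt_quadratic
  have hT : ((ModularGroup.T • rhoPt : ℍ) : ℂ) = (rhoPt : ℂ) + 1 := by
    rw [UpperHalfPlane.modular_T_smul, coe_vadd]; push_cast; ring
  show (-((ModularGroup.T • rhoPt : ℍ) : ℂ))⁻¹ = (rhoPt : ℂ)
  rw [hT]
  refine inv_eq_of_mul_eq_one_right ?_
  linear_combination -h

theorem S_smul_I : ModularGroup.S • UpperHalfPlane.I = UpperHalfPlane.I := by
  rw [UpperHalfPlane.modular_S_smul]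
  ext1
  show (-(Complex.I))⁻¹ = Complex.I
  rw [inv_neg, Complex.inv_I, neg_neg]

/-- A level one form vanishes at a fixed point whose multiplier is not `1`. -/
theorem levelOne_eq_zero_of_fixed {k : ℤ} (f : ModularForm 𝒮ℒ k) {h : SL(2, ℤ)} {τ : ℍ}
    (hh : h • τ = τ) (hne : denom (h : GL (Fin 2) ℝ) (τ : ℂ) ^ k ≠ 1) : f τ = 0 := by
  by_contra hf
  have h0 : (f : ℍ → ℂ) ≠ 0 := fun e => hf (congrFun e τ)
  have h1 : (f : ℍ → ℂ) ∣[k] h = f := by
    rw [ModularForm.SL_slash]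
    exact SlashInvariantFormClass.slash_action_eq f _ ⟨h, rfl⟩
  have := denom_zpow_eq_one_of_fixed (ModularFormClass.holo f) h0 h1 hh
  rw [ptOrd_eq_zero_of_ne_zero (ModularFormClass.holo f) hf, mul_zero, add_zero] at this
  exact hne this

theorem kleinJ_rhoPt : kleinJ rhoPt = 0 := by
  rw [kleinJ_eq_zero_iff]
  refine levelOne_eq_zero_of_fixed E₄ ST_smul_rhoPt ?_
  rw [denom_ST]
  have h := coe_rhoPt_quadratic
  show ((rhoPt : ℂ) + 1) ^ (4 : ℤ) ≠ 1
  intro hc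
  have h4 : ((rhoPt : ℂ) + 1) ^ (4 : ℕ) = 1 := by exact_mod_cast hc
  have h2 : (rhoPt : ℂ) = -2 := by
    linear_combination (((rhoPt : ℂ)^2 + 3 * rhoPt + 2)) * h - h4
  have := congrArg Complex.im h2
  simp [rhoPt] at this

theorem kleinJ_I : kleinJ UpperHalfPlane.I = 1728 := by
  rw [kleinJ_eq_1728_iff]
  refine levelOne_eq_zero_of_fixed E₆ S_smul_I ?_
  rw [denom_S]
  show Complex.I ^ (6 : ℤ) ≠ 1
  have : Complex.I ^ (6 : ℕ) = -1 := by
    rw [show (6 : ℕ) = 4 + 2 from rfl, pow_add, Complex.I_pow_four, Complex.I_sq, one_mul]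
  rw [show Complex.I ^ (6 : ℤ) = Complex.I ^ (6 : ℕ) from zpow_natCast _ 6, this]
  norm_num

theorem kleinJDegree_rhoPt : kleinJDegree rhoPt = 3 := by simp [kleinJDegree, kleinJ_rhoPt]

theorem kleinJDegree_I : kleinJDegree UpperHalfPlane.I = 2 := by
  simp [kleinJDegree, kleinJ_I]

/-- `h` fixes `τ` and rotates by a primitive root of unity of order the local degree of `j`. -/
def IsStabGen (τ : ℍ) (h : SL(2, ℤ)) : Prop :=
  h • τ = τ ∧ IsPrimitiveRoot (denom (h : GL (Fin 2) ℝ) (τ : ℂ) ^ 2) (kleinJDegree τ)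

theorem isStabGen_rhoPt : IsStabGen rhoPt (ModularGroup.S * ModularGroup.T) := by
  refine ⟨ST_smul_rhoPt, ?_⟩
  rw [denom_ST, kleinJDegree_rhoPt]
  have h := coe_rhoPt_quadratic
  have := Fact.mk Nat.prime_three
  rw [IsPrimitiveRoot.iff_orderOf]
  refine orderOf_eq_prime ?_ ?_
  · linear_combination ((rhoPt : ℂ) ^ 4 + 5 * (rhoPt : ℂ) ^ 3 + 9 * (rhoPt : ℂ) ^ 2 + 6 * rhoPt) * h
  · intro h2
    have h3 : (rhoPt : ℂ) = 1 := by linear_combination h2 - h
    have := congrArg Complex.im h3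
    simp [rhoPt] at this

theorem isStabGen_I : IsStabGen UpperHalfPlane.I ModularGroup.S := by
  refine ⟨S_smul_I, ?_⟩
  rw [denom_S, kleinJDegree_I, show ((UpperHalfPlane.I : ℍ) : ℂ) = Complex.I from rfl,
    Complex.I_sq]
  exact IsPrimitiveRoot.neg_one 0 (by norm_num)

theorem isStabGen_one {τ : ℍ} (h0 : kleinJ τ ≠ 0) (h1 : kleinJ τ ≠ 1728) : IsStabGen τ 1 :=
  ⟨one_smul _ τ, by simp [denom_one, kleinJDegree, h0, h1]⟩

theorem IsStabGen.conj {τ : ℍ} {h : SL(2, ℤ)} (hg : IsStabGen τ h) (a : SL(2, ℤ)) :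
    IsStabGen (a • τ) (a * h * a⁻¹) := by
  refine ⟨?_, ?_⟩
  · rw [SemigroupAction.mul_smul, inv_smul_smul, SemigroupAction.mul_smul, hg.1]
  · have h1 := denom_conj_fixed (g := a⁻¹) hg.1
    rw [inv_inv] at h1
    rw [h1, kleinJDegree_smul]
    exact hg.2

/-- Every point has a stabiliser generator. -/
theorem exists_isStabGen (τ : ℍ) : ∃ h : SL(2, ℤ), IsStabGen τ h := by
  rcases eq_or_ne (kleinJ τ) 0 with h0 | h0
  · obtain ⟨a, rfl⟩ := kleinJ_eq_kleinJ_iff.1 (kleinJ_rhoPt.trans h0.symm)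
    exact ⟨_, isStabGen_rhoPt.conj a⟩
  rcases eq_or_ne (kleinJ τ) 1728 with h1 | h1
  · obtain ⟨a, rfl⟩ := kleinJ_eq_kleinJ_iff.1 (kleinJ_I.trans h1.symm)
    exact ⟨_, isStabGen_I.conj a⟩
  exact ⟨1, isStabGen_one h0 h1⟩

/-- The values of the valuations over `τ` are multiples of `m / s`. -/
theorem dvd_mul_log_ptValAt {N : ℕ} {τ : ℍ} {h : SL(2, ℤ)} (hg : IsStabGen τ h) {s : ℕ}
    {q : Cosets.X0 N} (hs : h ^ s • q = q) (x : MFField N) :
    (kleinJDegree τ : ℤ) ∣ (s : ℤ) * WithZero.log (ptValAt τ q x) :=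
  (hg.2.zpow_eq_one_iff_dvd _).1 (denom_zpow_val_eq_one hg.1 hs x)

end Fermat.Agent.MF.PlaceOrbits
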