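import Mathlib
import Fermat.Prelude.Def_ModularCurve_LaurentCoeff
import Fermat.Prelude.Def_AlgebraicCurve_DivisorClassGroup

/-!
Integrality over the local rings of the `j`-line: it forces membership in every place above,
and it descends along an embedding of coefficient fields.
-/

set_option autoImplicit false

noncomputable section

open AlgebraicCurve Polynomial ModularCurve

namespace Fermat.Agent.MF.PlaceOrbits

variable {K F : Type*} [Field K] [Field F] [Algebra K F]

/-- A relation `D(j) xⁿ + ∑ cᵢ(j) xⁱ = 0`. -/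
def JRelation (j x : F) (n : ℕ) (c : ℕ → K[X]) (D : K[X]) : Prop :=
  aeval j D * x ^ n + ∑ i ∈ Finset.range n, aeval j (c i) * x ^ i = 0

/-- `x` is integral over the local ring at `j = a`. -/
def IntegralAtPt (j x : F) (a : K) : Prop :=
  ∃ (n : ℕ) (c : ℕ → K[X]) (D : K[X]), D.eval a ≠ 0 ∧ JRelation j x n c D

variable (K) in
/-- `x` is integral over the local ring at `j = ∞`. -/
def IntegralAtInf (j x : F) : Prop :=
  ∃ (n : ℕ) (c : ℕ → K[X]) (D : K[X]), D ≠ 0 ∧
    (∀ i < n, (c i).natDegree ≤ D.natDegree) ∧ JRelation j x n c D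

theorem pl_adic_algebraMap (P : Place K F) {e : K} (he : e ≠ 0) :
    P.adicValuation (algebraMap K F e) = 1 := by
  rw [← Place.coe_algebraMap, P.adicValuation_coe_eq_one_iff]
  exact (IsUnit.mk0 e he).map _

theorem pl_adic_le_one (P : Place K F) {x : F} (hx : x ∈ P.toValuationSubring) :
    P.adicValuation x ≤ 1 := by
  have := P.adicValuation_coe ⟨x, hx⟩
  rw [show ((⟨x, hx⟩ : P.toValuationSubring) : F) = x from rfl] at this
  rw [this]
  exact IsDedekindDomain.HeightOneSpectrum.intValuation_le_one _ _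

theorem pl_adic_algebraMap_le (P : Place K F) (e : K) :
    P.adicValuation (algebraMap K F e) ≤ 1 :=
  pl_adic_le_one P (P.algebraMap_mem' e)

theorem pl_mem_of_relation (P : Place K F) {j x : F} {n : ℕ} {c : ℕ → K[X]} {D : K[X]}
    (h : JRelation j x n c D) (hD : P.adicValuation (aeval j D) ≠ 0)
    (hc : ∀ i < n, P.adicValuation (aeval j (c i)) ≤ P.adicValuation (aeval j D)) :
    x ∈ P.toValuationSubring := by
  by_contra hx
  have hx0 : x ≠ 0 := fun h => hx (h ▸ zero_mem _)
  have hv : 1 < P.adicValuation x := by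
    by_contra hle
    push Not at hle
    obtain ⟨π, hπ⟩ := IsDiscreteValuationRing.exists_irreducible P.toValuationSubring
    obtain ⟨u, hu⟩ := P.exists_unit_mul_zpow hx0 hπ
    have h0 : 0 ≤ P.ord x := by
      have := (WithZero.log_le_log (P.adicValuation_ne_zero hx0) one_ne_zero).2 hle
      rw [WithZero.log_one] at this
      simp only [Place.ord]
      omega
    refine hx ?_
    rw [hu, ← Int.toNat_of_nonneg h0, zpow_natCast]
    exact mul_mem (u : P.toValuationSubring).2 (pow_mem π.2 _)
  have hlt : P.adicValuation (∑ i ∈ Finset.range n, aeval j (c i) * x ^ i) <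
      P.adicValuation (aeval j D * x ^ n) := by
    refine Valuation.map_sum_lt _ ?_ fun i hi => ?_
    · rw [map_mul, map_pow]
      exact mul_ne_zero hD (pow_ne_zero _ (ne_bot_of_gt hv))
    · have hi' := Finset.mem_range.1 hi
      rw [map_mul, map_pow, map_mul, map_pow]
      calc P.adicValuation (aeval j (c i)) * P.adicValuation x ^ i
          ≤ P.adicValuation (aeval j D) * P.adicValuation x ^ i := mul_le_mul_left (hc i hi') _
        _ < P.adicValuation (aeval j D) * P.adicValuation x ^ n :=
            mul_lt_mul_of_pos_left (pow_lt_pow_right₀ hv hi') (zero_lt_iff.2 hD)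
  have := P.adicValuation.map_add_eq_of_lt_left hlt
  rw [show aeval j D * x ^ n + ∑ i ∈ Finset.range n, aeval j (c i) * x ^ i = 0 from h,
    map_zero] at this
  exact not_lt_of_ge bot_le (this.symm ▸ hlt)

theorem pl_mem_of_integralAtPt (P : Place K F) {j x : F} {a : K}
    (ht : 0 < P.ord (j - algebraMap K F a)) (h : IntegralAtPt j x a) :
    x ∈ P.toValuationSubring := by
  obtain ⟨n, c, D, hDa, hrel⟩ := h
  set t := j - algebraMap K F a with htdef
  have ht0 : t ≠ 0 := fun h => by simp [h] at ht
  have hvt : P.adicValuation t < 1 := by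
    rw [← WithZero.log_lt_log (P.adicValuation_ne_zero ht0) one_ne_zero, WithZero.log_one]
    simp only [Place.ord] at ht
    omega
  have hvj : P.adicValuation j ≤ 1 := by
    rw [show j = t + algebraMap K F a by simp [htdef]]
    exact (Valuation.map_add _ _ _).trans (max_le hvt.le (pl_adic_algebraMap_le P a))
  have hle : ∀ E : K[X], P.adicValuation (aeval j E) ≤ 1 := fun E => by
    rw [Polynomial.aeval_eq_sum_range]
    refine Valuation.map_sum_le _ fun i _ => ?_
    rw [Algebra.smul_def, map_mul, map_pow]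
    exact mul_le_one₀ (pl_adic_algebraMap_le P _) bot_le (pow_le_one₀ bot_le hvj)
  have hD1 : P.adicValuation (aeval j D) = 1 := by
    obtain ⟨E, hE⟩ := Polynomial.X_sub_C_dvd_sub_C_eval (p := D) (a := a)
    rw [sub_eq_iff_eq_add] at hE
    rw [hE, map_add, map_mul, map_sub, aeval_X, aeval_C, aeval_C, ← htdef,
      Valuation.map_add_eq_of_lt_right]
    · exact pl_adic_algebraMap P hDa
    · rw [pl_adic_algebraMap P hDa, map_mul]
      exact mul_lt_one_of_nonneg_of_lt_one_left bot_le hvt (hle E)
  exact pl_mem_of_relation P hrel (by rw [hD1]; exact one_ne_zero)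
    fun i _ => (hle _).trans hD1.ge

theorem pl_mem_of_integralAtInf (P : Place K F) {j x : F} (ht : 0 < P.ord j⁻¹)
    (h : IntegralAtInf K j x) : x ∈ P.toValuationSubring := by
  obtain ⟨n, c, D, hD0, hdeg, hrel⟩ := h
  rw [P.ord_inv] at ht
  have hj0 : j ≠ 0 := fun h => by simp [h] at ht
  have hvj : 1 < P.adicValuation j := by
    rw [← WithZero.log_lt_log one_ne_zero (P.adicValuation_ne_zero hj0), WithZero.log_one]
    simp only [Place.ord] at ht
    omega
  have hle : ∀ E : K[X], P.adicValuation (aeval j E) ≤ P.adicValuation j ^ E.natDegree := by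
    intro E
    rw [Polynomial.aeval_eq_sum_range]
    refine Valuation.map_sum_le _ fun i hi => ?_
    rw [Algebra.smul_def, map_mul, map_pow]
    exact (mul_le_of_le_one_left' (pl_adic_algebraMap_le P _)).trans
      (pow_le_pow_right₀ hvj.le (Nat.le_of_lt_succ (Finset.mem_range.1 hi)))
  have hvD : P.adicValuation (aeval j D) = P.adicValuation j ^ D.natDegree := by
    rw [Polynomial.aeval_eq_sum_range, Finset.sum_range_succ, Algebra.smul_def]
    have htop : P.adicValuation (algebraMap K F (D.coeff D.natDegree) * j ^ D.natDegree) =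
        P.adicValuation j ^ D.natDegree := by
      rw [map_mul, map_pow, pl_adic_algebraMap P (e := D.coeff D.natDegree) (leadingCoeff_ne_zero.2 hD0), one_mul]
    rw [Valuation.map_add_eq_of_lt_right, htop]
    rw [htop]
    refine Valuation.map_sum_lt _ (pow_ne_zero _ (ne_bot_of_gt hvj)) fun i hi => ?_
    rw [Algebra.smul_def, map_mul, map_pow]
    exact (mul_le_of_le_one_left' (pl_adic_algebraMap_le P _)).trans_lt
      (pow_lt_pow_right₀ hvj (Finset.mem_range.1 hi))
  exact pl_mem_of_relation P hrel (by rw [hvD]; exact pow_ne_zero _ (ne_bot_of_gt hvj))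
    fun i hi => (hle _).trans ((pow_le_pow_right₀ hvj.le (hdeg i hi)).trans hvD.ge)

/-! ### Descent along an embedding of coefficient fields -/

section Descent

variable {k L : Type*} [Field k] [Field L] (ι : k →+* L)

/-- Apply an additive map to all coefficients of a polynomial. -/
def mapCoeffs (π : L →+ k) (p : L[X]) : k[X] :=
  ∑ i ∈ Finset.range (p.natDegree + 1), Polynomial.monomial i (π (p.coeff i))

theorem coeff_mapCoeffs (π : L →+ k) (p : L[X]) (i : ℕ) :
    (mapCoeffs π p).coeff i = π (p.coeff i) := by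
  simp only [mapCoeffs, finsetSum_coeff, coeff_monomial, Finset.sum_ite_eq', Finset.mem_range]
  split_ifs with h
  · rfl
  · rw [Polynomial.coeff_eq_zero_of_natDegree_lt (by omega), map_zero]

theorem natDegree_mapCoeffs_le (π : L →+ k) (p : L[X]) :
    (mapCoeffs π p).natDegree ≤ p.natDegree :=
  natDegree_le_iff_coeff_eq_zero.2 fun i hi => by
    rw [coeff_mapCoeffs, Polynomial.coeff_eq_zero_of_natDegree_lt hi, map_zero]

/-- Apply an additive map to all coefficients of a Laurent series. -/
def mapLaurentAdd (π : L →+ k) : LaurentSeries L →+ LaurentSeries k where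
  toFun y := y.map (π : ZeroHom L k)
  map_zero' := by ext i; simp
  map_add' y z := by ext i; simp

@[simp]
theorem coeff_mapLaurentAdd (π : L →+ k) (y : LaurentSeries L) (i : ℤ) :
    (mapLaurentAdd π y).coeff i = π (y.coeff i) := rfl

variable {ι}

theorem mapLaurentAdd_smul {π : L →+ k} (hπ : ∀ e b, π (e * ι b) = π e * b) (e : L)
    (y : LaurentSeries k) :
    mapLaurentAdd π (algebraMap L (LaurentSeries L) e * coeffMap ι y) =
      algebraMap k (LaurentSeries k) (π e) * y := by
  ext i
  rw [algebraMap_laurentSeries_eq_single, algebraMap_laurentSeries_eq_single,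
    coeff_mapLaurentAdd, HahnSeries.coeff_single_zero_mul, HahnSeries.coeff_single_zero_mul,
    coeffMap_coeff, hπ]

theorem mapLaurentAdd_aeval {π : L →+ k} (hπ : ∀ e b, π (e * ι b) = π e * b) (p : L[X])
    (j y : LaurentSeries k) :
    mapLaurentAdd π (aeval (coeffMap ι j) p * coeffMap ι y) = aeval j (mapCoeffs π p) * y := by
  rw [Polynomial.aeval_eq_sum_range, mapCoeffs, map_sum, Finset.sum_mul, Finset.sum_mul, map_sum]
  refine Finset.sum_congr rfl fun i _ => ?_
  rw [Algebra.smul_def, aeval_monomial, mul_assoc, mul_assoc, ← map_pow, ← map_mul,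
    mapLaurentAdd_smul hπ]

theorem jRelation_descend {π : L →+ k} (hπ : ∀ e b, π (e * ι b) = π e * b) {j x : LaurentSeries k}
    {n : ℕ} {c : ℕ → L[X]} {D : L[X]} (h : JRelation (coeffMap ι j) (coeffMap ι x) n c D) :
    JRelation j x n (fun i => mapCoeffs π (c i)) (mapCoeffs π D) := by
  have h' := congrArg (mapLaurentAdd π) h
  simp only [map_add, map_sum, map_zero, ← map_pow] at h'
  simp only [mapLaurentAdd_aeval hπ] at h'
  exact h'

variable (ι) in
theorem exists_functional {e : L} (he : e ≠ 0) :
    ∃ π : L →+ k, (∀ e b, π (e * ι b) = π e * b) ∧ π e = 1 := by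
  let := ι.toAlgebra
  obtain ⟨f, hf⟩ : ∃ f : L →ₗ[k] k, f e ≠ 0 := by
    by_contra hno
    push Not at hno
    exact he ((Module.forall_dual_apply_eq_zero_iff k e).1 hno)
  refine ⟨((f e)⁻¹ • f).toAddMonoidHom, fun d b => ?_, ?_⟩
  · show (f e)⁻¹ • f (d * ι b) = (f e)⁻¹ • f d * b
    rw [show d * ι b = b • d by rw [Algebra.smul_def, mul_comm]; rfl, map_smul]
    simp only [smul_eq_mul]
    ring
  · simp [hf]

theorem integralAtPt_descend {j x : LaurentSeries k} {a : k}
    (h : IntegralAtPt (coeffMap ι j) (coeffMap ι x) (ι a)) : IntegralAtPt j x a := by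
  obtain ⟨n, c, D, hD, hrel⟩ := h
  obtain ⟨π, hπ, hπe⟩ := exists_functional ι hD
  refine ⟨n, _, _, ?_, jRelation_descend hπ hrel⟩
  have : π (D.eval (ι a)) = (mapCoeffs π D).eval a := by
    rw [eval_eq_sum_range, eval_eq_sum_range' (Nat.lt_succ_of_le (natDegree_mapCoeffs_le π D)),
      map_sum]
    refine Finset.sum_congr rfl fun i _ => ?_
    rw [← map_pow, hπ, coeff_mapCoeffs]
  rw [← this, hπe]
  exact one_ne_zero

theorem integralAtInf_descend {j x : LaurentSeries k}
    (h : IntegralAtInf L (coeffMap ι j) (coeffMap ι x)) : IntegralAtInf k j x := by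
  obtain ⟨n, c, D, hD, hdeg, hrel⟩ := h
  obtain ⟨π, hπ, hπe⟩ := exists_functional ι (leadingCoeff_ne_zero.2 hD)
  have hcoeff : (mapCoeffs π D).coeff D.natDegree = 1 := by rw [coeff_mapCoeffs]; exact hπe
  refine ⟨n, _, _, ?_, ?_, jRelation_descend hπ hrel⟩
  · intro h0
    rw [h0, Polynomial.coeff_zero] at hcoeff
    exact zero_ne_one hcoeff
  · intro i hi
    refine (natDegree_mapCoeffs_le π _).trans ((hdeg i hi).trans ?_)
    exact le_natDegree_of_ne_zero (by rw [hcoeff]; exact one_ne_zero)

theorem jRelation_map {G : Type*} [Field G] [Algebra K G] (φ : F →ₐ[K] G) {j x : F} {n : ℕ}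
    {c : ℕ → K[X]} {D : K[X]} :
    JRelation (φ j) (φ x) n c D ↔ JRelation j x n c D := by
  have : aeval (φ j) D * φ x ^ n + ∑ i ∈ Finset.range n, aeval (φ j) (c i) * φ x ^ i =
      φ (aeval j D * x ^ n + ∑ i ∈ Finset.range n, aeval j (c i) * x ^ i) := by
    simp [Polynomial.aeval_algHom_apply, map_sum]
  rw [JRelation, JRelation, this]
  exact map_eq_zero_iff φ φ.injective

theorem integralAtPt_map {G : Type*} [Field G] [Algebra K G] (φ : F →ₐ[K] G) {j x : F} {a : K} :
    IntegralAtPt (φ j) (φ x) a ↔ IntegralAtPt j x a := by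
  simp only [IntegralAtPt, jRelation_map]

theorem integralAtInf_map {G : Type*} [Field G] [Algebra K G] (φ : F →ₐ[K] G) {j x : F} :
    IntegralAtInf K (φ j) (φ x) ↔ IntegralAtInf K j x := by
  simp only [IntegralAtInf, jRelation_map]

end Descent

end Fermat.Agent.MF.PlaceOrbits
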