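import Fermat.Prelude.Thm_ModularCurve_coeff_jqModC_neg_one
import Fermat.Agent.MF.CuspJElt
import Fermat.Agent.MF.HolCrit
import Fermat.Agent.MF.Cosets.Cusps
import Fermat.Agent.FF.Degree
import Fermat.Agent.MF.PlaceOrbits.Abstract
import Fermat.Agent.MF.PlaceOrbits.Descent
import Fermat.Agent.MF.PlaceOrbits.Stabilizer

/-!
Places over a value of `j` are the orbits of a stabiliser generator on `X0 N`, places over
`j = ∞` are the `T`-orbits; orders are the normalised orders at points and cusps.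
-/

set_option autoImplicit false

noncomputable section

open UpperHalfPlane CongruenceSubgroup AlgebraicCurve IntermediateField WithZero
open scoped ModularForm MatrixGroups

namespace Fermat.Agent.MF.PlaceOrbits

/-! ### Orbits of a cyclic group -/

section Orbits

variable {N : ℕ} [NeZero N]

/-- Orbits of the powers of `h` on the cosets of `Γ₀(N)`. -/
abbrev HOrbits (N : ℕ) (h : SL(2, ℤ)) : Type :=
  MulAction.orbitRel.Quotient (Subgroup.zpowers h) (Cosets.X0 N)

theorem finite_X0 (N : ℕ) [NeZero N] : Finite (Cosets.X0 N) :=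
  Nat.finite_of_card_ne_zero (by rw [Cosets.card_X0]; exact (Cosets.dedekindPsi_pos N).ne')

/-- The size of the orbit of `q`. -/
def orbitSize (h : SL(2, ℤ)) (q : Cosets.X0 N) : ℕ :=
  Nat.card (MulAction.orbit (Subgroup.zpowers h) q)

omit [NeZero N] in
theorem orbitSize_eq_card_orbit (h : SL(2, ℤ)) (q : Cosets.X0 N) :
    orbitSize h q = Nat.card (MulAction.orbitRel.Quotient.orbit
      (Quotient.mk'' q : HOrbits N h)) := rfl

theorem orbitSize_pos (h : SL(2, ℤ)) (q : Cosets.X0 N) : 0 < orbitSize h q := by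
  have := finite_X0 N
  have := (MulAction.nonempty_orbit q (M := Subgroup.zpowers h)).to_subtype
  exact Nat.card_pos

omit [NeZero N] in
theorem pow_orbitSize_smul (h : SL(2, ℤ)) (q : Cosets.X0 N) : h ^ orbitSize h q • q = q := by
  have e : orbitSize h q = Function.minimalPeriod (h • ·) q :=
    (Nat.card_congr (MulAction.orbitZPowersEquiv h q)).trans (Nat.card_zmod _)
  rw [e]
  exact MulAction.pow_smul_eq_iff_minimalPeriod_dvd.2 dvd_rfl

theorem sum_orbitSize (h : SL(2, ℤ)) [Fintype (HOrbits N h)] :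
    ∑ o : HOrbits N h, orbitSize h o.out = ModularCurve.dedekindPsi N := by
  have := finite_X0 N
  rw [← Cosets.card_X0, Nat.card_congr (MulAction.selfEquivSigmaOrbits (Subgroup.zpowers h) _),
    Nat.card_sigma]
  rfl

omit [NeZero N] in
theorem orbit_out_eq (h : SL(2, ℤ)) (q : Cosets.X0 N) :
    MulAction.orbit (Subgroup.zpowers h) (Quotient.mk'' q : HOrbits N h).out =
      MulAction.orbit (Subgroup.zpowers h) q :=
  MulAction.orbit_eq_iff.2 (Quotient.mk_out (s := MulAction.orbitRel _ _) q)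

omit [NeZero N] in
theorem orbitSize_out (h : SL(2, ℤ)) (q : Cosets.X0 N) :
    orbitSize h (Quotient.mk'' q : HOrbits N h).out = orbitSize h q := by
  rw [orbitSize, orbitSize, orbit_out_eq]

omit [NeZero N] in
theorem eq_on_orbit {β : Type*} (h : SL(2, ℤ)) (v : Cosets.X0 N → β)
    (hv : ∀ (n : ℤ) q, v (h ^ n • q) = v q) (q : Cosets.X0 N) :
    v (Quotient.mk'' q : HOrbits N h).out = v q := by
  obtain ⟨⟨a, n, rfl⟩, ha⟩ := Quotient.mk_out (s := MulAction.orbitRel (Subgroup.zpowers h) _) q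
  rw [← ha]
  exact hv n q

end Orbits

/-! ### The field -/

variable {K : Type*} [Field K]

/-- A field of Laurent series over `K` inside `MF_N` through `ι`, containing `j`, of degree
`ψ(N)` over `K(j)`. -/
structure JData (ι : K →+* ℂ) (N : ℕ) (E : IntermediateField K (LaurentSeries K)) where
  j : E
  mem_MF : ∀ x ∈ E, ModularCurve.coeffMap ι x ∈ MFField N
  map_j : ModularCurve.coeffMap ι (j : LaurentSeries K) = jC
  finrank_eq : Module.finrank K⟮j⟯ E = ModularCurve.dedekindPsi N

namespace JData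

variable {ι : K →+* ℂ} {N : ℕ} {E : IntermediateField K (LaurentSeries K)} (D : JData ι N E)

/-- The embedding into `MF_N`. -/
def emb : E →+* MFField N where
  toFun x := ⟨ModularCurve.coeffMap ι x, D.mem_MF x x.2⟩
  map_one' := Subtype.ext (map_one _)
  map_mul' _ _ := Subtype.ext (map_mul _ _ _)
  map_zero' := Subtype.ext (map_zero _)
  map_add' _ _ := Subtype.ext (map_add _ _ _)

@[simp]
theorem coe_emb (x : E) :
    (D.emb x : LaurentSeries ℂ) = ModularCurve.coeffMap ι (x : LaurentSeries K) := rfl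

theorem emb_algebraMap (a : K) :
    D.emb (algebraMap K E a) = algebraMap ℂ (MFField N) (ι a) := by
  ext1
  rw [coe_emb, IntermediateField.coe_algebraMap_apply, IntermediateField.coe_algebraMap_apply,
    ModularCurve.algebraMap_laurentSeries_eq_single, ModularCurve.coeffMap_single,
    ← ModularCurve.algebraMap_laurentSeries_eq_single]

/-- The valuation at the point `q⁻¹ • τ`. -/
def pointVal (τ : ℍ) (q : Cosets.X0 N) : Valuation E ℤᵐ⁰ := (ptValAt τ q).comap D.emb

variable [NeZero N]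

omit [NeZero N] in
theorem emb_j : D.emb D.j = mfJ N := Subtype.ext D.map_j

/-- The valuation at the cusp `q⁻¹ • ∞`. -/
def cuspVal (q : Cosets.X0 N) : Valuation E ℤᵐ⁰ := (cuspValAt q).comap D.emb

theorem transcendental_j [IsAlgClosed K] : Transcendental K D.j := by
  intro halg
  have hi : IsIntegral K D.j := halg.isIntegral
  obtain ⟨a, ha⟩ := (minpoly.degree_eq_one_iff).1
    (IsAlgClosed.degree_eq_one_of_irreducible K (minpoly.irreducible hi))
  have h1 := congrArg D.emb ha
  rw [D.emb_algebraMap, D.emb_j] at h1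
  have h2 := congrArg (fun y : MFField N => (y : LaurentSeries ℂ).coeff (-1)) h1
  simp only [IntermediateField.coe_algebraMap_apply, coe_mfJ,
    ModularCurve.algebraMap_laurentSeries_eq_single] at h2
  rw [HahnSeries.coeff_single_of_ne (by norm_num),
    ModularCurve.coeff_jqModC_neg_one] at h2
  exact zero_ne_one h2

include D in
theorem isFunctionField [IsAlgClosed K] : FF.IsFunctionField K E :=
  haveI : Module.Free K⟮D.j⟯ E := Module.Free.of_divisionRing _ _
  ⟨D.j, D.transcendental_j, Module.finite_of_finrank_pos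
    (by rw [D.finrank_eq]; exact Cosets.dedekindPsi_pos N)⟩

omit [NeZero N] in
theorem pointVal_algebraMap (τ : ℍ) (q : Cosets.X0 N) {a : K} (ha : a ≠ 0) :
    D.pointVal τ q (algebraMap K E a) = 1 := by
  rw [pointVal, Valuation.comap_apply, D.emb_algebraMap]
  exact FormOrder.val_algebraMap _ ((map_ne_zero ι).2 ha)

theorem cuspVal_algebraMap (q : Cosets.X0 N) {a : K} (ha : a ≠ 0) :
    D.cuspVal q (algebraMap K E a) = 1 := by
  rw [cuspVal, Valuation.comap_apply, D.emb_algebraMap]
  exact FormOrder.val_algebraMap _ ((map_ne_zero ι).2 ha)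

theorem pointVal_j_sub {a : K} {τ : ℍ} (hτ : kleinJ τ = ι a) (q : Cosets.X0 N) :
    D.pointVal τ q (D.j - algebraMap K E a) = exp (-(kleinJDegree τ : ℤ)) := by
  induction q using QuotientGroup.induction_on with
  | H g =>
    have hj : kleinJ (g⁻¹ • τ) = ι a := by rw [kleinJ_smul, hτ]
    rw [pointVal, Valuation.comap_apply, map_sub, D.emb_algebraMap, D.emb_j, ← hj, ptValAt_mk]
    have h := mfOrdAt_jElt_sub (mfJ_mul_qL_cuspD N) (g⁻¹ • τ)
    set z := mfJ N - algebraMap ℂ (MFField N) (kleinJ (g⁻¹ • τ))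
    have hz : z ≠ 0 := by
      intro h0
      have e := jElt_sub_eq (mfJ_mul_qL_cuspD N) (kleinJ (g⁻¹ • τ))
      rw [show mfJ N - algebraMap ℂ (MFField N) (kleinJ (g⁻¹ • τ)) = 0 from h0,
        ZeroMemClass.coe_zero, eq_comm, div_eq_zero_iff, qL_mform_eq_zero_iff,
        qL_mform_eq_zero_iff] at e
      exact e.elim (cuspE_sub_smul_ne_zero _) (cuspD_ne_zero N)
    rw [mfOrdAt_eq_neg_log_ptVal _ hz, kleinJDegree_smul] at h
    rw [← exp_log ((ptVal N (g⁻¹ • τ)).ne_zero_iff.2 hz)]
    congr 1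
    omega

theorem j_ne_zero : D.j ≠ 0 := by
  intro h
  have h1 := congrArg D.emb h
  rw [map_zero, D.emb_j] at h1
  have h2 := mfJ_mul_qL_cuspD N
  rw [h1, ZeroMemClass.coe_zero, zero_mul, eq_comm, qL_mform_eq_zero_iff] at h2
  exact cuspE_ne_zero N h2

theorem cuspVal_j_inv (q : Cosets.X0 N) : D.cuspVal q D.j⁻¹ = exp (-(N : ℤ)) := by
  induction q using QuotientGroup.induction_on with
  | H g =>
    rw [cuspVal, Valuation.comap_apply, map_inv₀, D.emb_j, cuspValAt_mk, map_inv₀, exp_neg]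
    congr 1
    have hd : qL (cuspD N) ≠ 0 := mt (qL_mform_eq_zero_iff _).mp (cuspD_ne_zero N)
    have e : (mfJ N : LaurentSeries ℂ) = qL (cuspE N) / qL (cuspD N) :=
      (eq_div_iff hd).2 (mfJ_mul_qL_cuspD N)
    have hz : mfJ N ≠ 0 := by rw [← D.emb_j]; exact (map_ne_zero D.emb).2 D.j_ne_zero
    rw [← exp_log ((cuspOrder N g⁻¹).val.ne_zero_iff.2 hz),
      (cuspOrder N g⁻¹).log_val (cuspE_ne_zero N) (cuspD_ne_zero N) e]
    congr 1
    show ((qExpansion (N : ℝ) (⇑(cuspD N) ∣[(12 : ℤ)] g⁻¹)).order.toNat : ℤ) -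
      (qExpansion (N : ℝ) (⇑(cuspE N) ∣[(12 : ℤ)] g⁻¹)).order.toNat = N
    rw [order_qExpansion_cuspE_slash, order_qExpansion_cuspD_slash]
    simp

theorem integralAtPt_of_pointVal {a : K} {τ : ℍ} (hτ : kleinJ τ = ι a) {x : E}
    (hx : ∀ q : Cosets.X0 N, D.pointVal τ q x ≤ 1) : IntegralAtPt D.j x a := by
  rw [← integralAtPt_map E.val]
  refine integralAtPt_descend (ι := ι) ?_
  show IntegralAtPt (ModularCurve.coeffMap ι (D.j : LaurentSeries K))
    (ModularCurve.coeffMap ι (x : LaurentSeries K)) (ι a)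
  obtain ⟨k, f, g, hg, e⟩ := mem_MFField_iff.1 (D.mem_MF x x.2)
  rw [D.map_j, e]
  refine integralAtPt_of_ordAtH f hg (ι a) fun σ hσ hf => ?_
  obtain ⟨γ, hγ⟩ := kleinJ_eq_kleinJ_iff.1 (hτ.trans hσ.symm)
  have h := hx (QuotientGroup.mk γ⁻¹)
  rw [pointVal, Valuation.comap_apply, ptValAt_mk, inv_inv, hγ, ptVal,
    (ptOrder N σ).val_le_one_iff hf hg e] at h
  rw [← ptOrd_eq_ordAtH (ModularFormClass.holo f) (mform_coe_ne_zero hf),
    ← ptOrd_eq_ordAtH (ModularFormClass.holo g) (mform_coe_ne_zero hg)]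
  exact h

theorem integralAtInf_of_cuspVal {x : E}
    (hx : ∀ q : Cosets.X0 N, D.cuspVal q x ≤ 1) : IntegralAtInf K D.j x := by
  rw [← integralAtInf_map E.val]
  refine integralAtInf_descend (ι := ι) ?_
  show IntegralAtInf ℂ (ModularCurve.coeffMap ι (D.j : LaurentSeries K))
    (ModularCurve.coeffMap ι (x : LaurentSeries K))
  obtain ⟨k, f, g, hg, e⟩ := mem_MFField_iff.1 (D.mem_MF x x.2)
  rw [D.map_j, e]
  refine integralAtInf_of_order f hg fun γ => ?_
  rcases eq_or_ne f 0 with rfl | hf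
  · rw [FunLike.coe_zero, SlashAction.zero_slash, qExpansion_zero, PowerSeries.order_zero]
    exact le_top
  have h := hx (QuotientGroup.mk γ⁻¹)
  rw [cuspVal, Valuation.comap_apply, cuspValAt_mk, inv_inv,
    (cuspOrder N γ).val_le_one_iff hf hg e] at h
  rw [← PowerSeries.coe_toNat_order (qExpansion_slash_ne_zero g (mform_coe_ne_zero hg) γ),
    ← PowerSeries.coe_toNat_order (qExpansion_slash_ne_zero f (mform_coe_ne_zero hf) γ)]
  exact_mod_cast (Int.ofNat_le.1 h)

theorem sum_ord_eq [IsAlgClosed K] {t : E} (ht : K⟮t⟯ = K⟮D.j⟯)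
    (htr : Transcendental K t) :
    ∃ S : Finset (Place K E), (∀ P, P ∈ S ↔ 0 < P.ord t) ∧
      ∑ P ∈ S, P.ord t = ModularCurve.dedekindPsi N := by
  have := D.isFunctionField
  have hfin : {P : Place K E | 0 < P.ord t}.Finite :=
    FF.finite_ord_pos t
  refine ⟨hfin.toFinset, fun P => hfin.mem_toFinset, ?_⟩
  have hsum := FF.sum_ord_mul_deg_eq htr (S := hfin.toFinset) fun P => hfin.mem_toFinset
  rw [ht, D.finrank_eq] at hsum
  rw [← hsum]
  refine Finset.sum_congr rfl fun P _ => ?_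
  rw [Place.deg_eq_one_of_isAlgClosed_of_finite P, Nat.cast_one, mul_one]

/-- **Places over a finite value of `j`.** -/
theorem exists_pointEquiv [IsAlgClosed K] {a : K} {τ : ℍ} (hτ : kleinJ τ = ι a) {h : SL(2, ℤ)}
    (hg : IsStabGen τ h) :
    ∃ π : HOrbits N h ≃ {P : Place K E // 0 < P.ord (D.j - algebraMap K E a)},
      ∀ q : Cosets.X0 N,
        (∀ x : E, x ∈ (π (Quotient.mk'' q)).1.toValuationSubring ↔ D.pointVal τ q x ≤ 1) ∧
        (π (Quotient.mk'' q)).1.ord (D.j - algebraMap K E a) = orbitSize h q ∧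
        ∀ x : E, (kleinJDegree τ : ℤ) * (π (Quotient.mk'' q)).1.ord x =
          orbitSize h q * -log (D.pointVal τ q x) := by
  classical
  have := finite_X0 N
  have := Fintype.ofFinite (HOrbits N h)
  have hinv : ∀ (n : ℤ) q, D.pointVal τ (h ^ n • q) = D.pointVal τ q := fun n q => by
    rw [pointVal, pointVal, ptValAt_fixed_smul τ ((MulAction.stabilizer _ τ).zpow_mem hg.1 n)]
  set t := D.j - algebraMap K E a
  have hgen : K⟮t⟯ = K⟮D.j⟯ := by
    refine le_antisymm (adjoin_simple_le_iff.2 ?_) (adjoin_simple_le_iff.2 ?_)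
    · exact sub_mem (mem_adjoin_simple_self K _) (IntermediateField.algebraMap_mem _ a)
    · have := add_mem (mem_adjoin_simple_self K t) (IntermediateField.algebraMap_mem K⟮t⟯ a)
      simpa [t] using this
  have htr : Transcendental K t := fun halg =>
    D.transcendental_j (by simpa [t] using halg.add (isAlgebraic_algebraMap a))
  obtain ⟨S, hS, hsum⟩ := D.sum_ord_eq hgen htr
  obtain ⟨π, hmem, he, hord⟩ := placeOrbits_bijective (K := K) (F := E)
    (fun o : HOrbits N h => D.pointVal τ o.out) (fun o => orbitSize h o.out) t (kleinJDegree τ)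
    (fun o => orbitSize_pos h _) (kleinJDegree_pos τ)
    (fun o _ hb => D.pointVal_algebraMap τ _ hb) (fun o => D.pointVal_j_sub hτ _)
    (fun o x => by
      exact dvd_mul_log_ptValAt hg (pow_orbitSize_smul h _) (D.emb x))
    (fun x hx P hP => pl_mem_of_integralAtPt P hP (D.integralAtPt_of_pointVal hτ fun q => by
      rw [← eq_on_orbit h (D.pointVal τ) hinv q]; exact hx _))
    S hS (by rw [hsum, ← sum_orbitSize h, Nat.cast_sum])
  refine ⟨π, fun q => ⟨fun x => ?_, ?_, fun x => ?_⟩⟩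
  · rw [hmem, eq_on_orbit h (D.pointVal τ) hinv q]
  · rw [he, orbitSize_out]
  · rw [hord, eq_on_orbit h (D.pointVal τ) hinv q, orbitSize_out]

/-- **Places over `j = ∞`.** -/
theorem exists_cuspEquiv [IsAlgClosed K] :
    ∃ π : HOrbits N ModularGroup.T ≃ {P : Place K E // 0 < P.ord D.j⁻¹},
      ∀ q : Cosets.X0 N,
        (∀ x : E, x ∈ (π (Quotient.mk'' q)).1.toValuationSubring ↔ D.cuspVal q x ≤ 1) ∧
        (π (Quotient.mk'' q)).1.ord D.j⁻¹ = orbitSize ModularGroup.T q ∧
        ∀ x : E, (N : ℤ) * (π (Quotient.mk'' q)).1.ord x =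
          orbitSize ModularGroup.T q * -log (D.cuspVal q x) := by
  classical
  have := finite_X0 N
  have := Fintype.ofFinite (HOrbits N ModularGroup.T)
  have hinv : ∀ (n : ℤ) q, D.cuspVal (ModularGroup.T ^ n • q) = D.cuspVal q := fun n q => by
    rw [cuspVal, cuspVal, cuspValAt_T_zpow_smul]
  have hgen : K⟮D.j⁻¹⟯ = K⟮D.j⟯ := by
    refine le_antisymm (adjoin_simple_le_iff.2 ?_) (adjoin_simple_le_iff.2 ?_)
    · exact inv_mem (mem_adjoin_simple_self K _)
    · simpa using inv_mem (mem_adjoin_simple_self K D.j⁻¹)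
  have htr : Transcendental K D.j⁻¹ := fun halg =>
    D.transcendental_j (by simpa using halg.inv)
  obtain ⟨S, hS, hsum⟩ := D.sum_ord_eq hgen htr
  obtain ⟨π, hmem, he, hord⟩ := placeOrbits_bijective (K := K) (F := E)
    (fun o : HOrbits N ModularGroup.T => D.cuspVal o.out)
    (fun o => orbitSize ModularGroup.T o.out) D.j⁻¹ N
    (fun o => orbitSize_pos _ _) (NeZero.pos N)
    (fun o _ hb => D.cuspVal_algebraMap _ hb) (fun o => D.cuspVal_j_inv _)
    (fun o x => dvd_mul_log_cuspValAt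
      (by rw [zpow_natCast]; exact pow_orbitSize_smul _ _) (D.emb x))
    (fun x hx P hP => pl_mem_of_integralAtInf P hP (D.integralAtInf_of_cuspVal fun q => by
      rw [← eq_on_orbit _ D.cuspVal hinv q]; exact hx _))
    S hS (by rw [hsum, ← sum_orbitSize ModularGroup.T, Nat.cast_sum])
  refine ⟨π, fun q => ⟨fun x => ?_, ?_, fun x => ?_⟩⟩
  · rw [hmem, eq_on_orbit _ D.cuspVal hinv q]
  · rw [he, orbitSize_out]
  · rw [hord, eq_on_orbit _ D.cuspVal hinv q, orbitSize_out]

end JData

end Fermat.Agent.MF.PlaceOrbits
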